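import Mathlib
import Fermat.Prelude.Def_GaloisRep_ResidualEquiv

/-!
# Absolute irreducibility from an involution

A two-dimensional irreducible representation with an element of eigenvalues `1` and `-1` is
absolutely irreducible when `2` is invertible (`splitData_of_irreducible`,
`SplitData.isAbsolutelyIrreducible`).
-/

set_option autoImplicit false

noncomputable section

open scoped TensorProduct

namespace Fermat.Agent.Conductor

local notation "Γ" => AlgebraicClosure ℚ ≃ₐ[ℚ] AlgebraicClosure ℚ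

variable {k : Type} [Field k]

/-- An involution-eigenbasis together with elements moving each eigenline off itself. -/
def SplitData (ρ : ResidualGaloisRep k) : Prop :=
  ∃ (b : Module.Basis (Fin 2) k ρ.V) (c g h : Γ), ρ.ρ c (b 0) = b 0 ∧ ρ.ρ c (b 1) = -b 1 ∧
    b.repr (ρ.ρ g (b 0)) 1 ≠ 0 ∧ b.repr (ρ.ρ h (b 1)) 0 ≠ 0

theorem SplitData.baseChange {ρ : ResidualGaloisRep k} (hd : SplitData ρ) (K : Type) [Field K]
    [Algebra k K] : SplitData (ρ.baseChange K) := by
  obtain ⟨b, c, g, h, h0, h1, hg, hh⟩ := hd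
  refine ⟨b.baseChange K, c, g, h, ?_, ?_, ?_, ?_⟩
  · show (ρ.ρ c).baseChange K (b.baseChange K 0) = b.baseChange K 0
    rw [Module.Basis.baseChange_apply, LinearMap.baseChange_tmul, h0]
  · show (ρ.ρ c).baseChange K (b.baseChange K 1) = -(b.baseChange K 1)
    rw [Module.Basis.baseChange_apply, LinearMap.baseChange_tmul, h1, TensorProduct.tmul_neg]
  · show (b.baseChange K).repr ((ρ.ρ g).baseChange K (b.baseChange K 0)) 1 ≠ 0
    rw [Module.Basis.baseChange_apply, LinearMap.baseChange_tmul,
      Module.Basis.baseChange_repr_tmul, ne_eq, smul_eq_zero]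
    exact fun hc => hc.elim hg one_ne_zero
  · show (b.baseChange K).repr ((ρ.ρ h).baseChange K (b.baseChange K 1)) 0 ≠ 0
    rw [Module.Basis.baseChange_apply, LinearMap.baseChange_tmul,
      Module.Basis.baseChange_repr_tmul, ne_eq, smul_eq_zero]
    exact fun hc => hc.elim hh one_ne_zero

theorem SplitData.baseChangeAlong {ρ : ResidualGaloisRep k} (hd : SplitData ρ) {k' : Type}
    [Field k'] (φ : k →+* k') : SplitData (ρ.baseChangeAlong φ) :=
  letI : Algebra k k' := φ.toAlgebra
  hd.baseChange k'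

theorem SplitData.isIrreducible {ρ : ResidualGaloisRep k} (h2 : (2 : k) ≠ 0) (hd : SplitData ρ) :
    ρ.IsIrreducible := by
  obtain ⟨b, c, g, h, h0, h1, hg, hh⟩ := hd
  intro U hU
  by_cases hbot : U = ⊥
  · exact Or.inl hbot
  right
  obtain ⟨u, hu, hu0⟩ := Submodule.exists_mem_ne_zero_of_ne_bot hbot
  have hdec : ∀ x, x = b.repr x 0 • b 0 + b.repr x 1 • b 1 := fun x => by
    conv_lhs => rw [← b.sum_repr x, Fin.sum_univ_two]
  set α := b.repr u 0
  set β := b.repr u 1
  have hcu : ρ.ρ c u = α • b 0 - β • b 1 := by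
    conv_lhs => rw [hdec u]
    rw [map_add, map_smul, map_smul, h0, h1, smul_neg, sub_eq_add_neg]
  have hA : (2 * α) • b 0 ∈ U := by
    have := U.add_mem hu (hU c u hu)
    rw [hcu] at this
    nth_rewrite 1 [hdec u] at this
    convert this using 1
    rw [two_mul, add_smul]; abel
  have hB : (2 * β) • b 1 ∈ U := by
    have := U.sub_mem hu (hU c u hu)
    rw [hcu] at this
    nth_rewrite 1 [hdec u] at this
    convert this using 1
    rw [two_mul, add_smul]; abel
  suffices hboth : b 0 ∈ U ∧ b 1 ∈ U by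
    rw [eq_top_iff]
    intro x _
    rw [hdec x]
    exact U.add_mem (U.smul_mem _ hboth.1) (U.smul_mem _ hboth.2)
  have hne : α ≠ 0 ∨ β ≠ 0 := by
    by_contra hc
    push Not at hc
    exact hu0 (by rw [hdec u, show b.repr u 0 = 0 from hc.1, show b.repr u 1 = 0 from hc.2]; simp)
  rcases hne with ha | hb
  · have hb0 : b 0 ∈ U := (U.smul_mem_iff (mul_ne_zero h2 ha)).mp hA
    refine ⟨hb0, (U.smul_mem_iff hg).mp ?_⟩
    have := U.sub_mem (hU g _ hb0) (U.smul_mem (b.repr (ρ.ρ g (b 0)) 0) hb0)
    nth_rewrite 1 [hdec (ρ.ρ g (b 0))] at this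
    rwa [add_sub_cancel_left] at this
  · have hb1 : b 1 ∈ U := (U.smul_mem_iff (mul_ne_zero h2 hb)).mp hB
    refine ⟨(U.smul_mem_iff hh).mp ?_, hb1⟩
    have := U.sub_mem (hU h _ hb1) (U.smul_mem (b.repr (ρ.ρ h (b 1)) 1) hb1)
    nth_rewrite 1 [hdec (ρ.ρ h (b 1))] at this
    rwa [add_sub_cancel_right] at this

/-- A representation with split data is absolutely irreducible. -/
theorem SplitData.isAbsolutelyIrreducible {ρ : ResidualGaloisRep k} (h2 : (2 : k) ≠ 0)
    (hd : SplitData ρ) : ρ.IsAbsolutelyIrreducible :=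
  (hd.baseChange (AlgebraicClosure k)).isIrreducible (by
    rw [← map_ofNat (algebraMap k (AlgebraicClosure k)) 2, ne_eq, map_eq_zero]; exact h2)

theorem isAbsolutelyIrreducible_of_equiv {ρ ρ' : ResidualGaloisRep k} (e : ρ.IsEquiv ρ')
    (h : ρ.IsAbsolutelyIrreducible) : ρ'.IsAbsolutelyIrreducible := by
  obtain ⟨e⟩ := e
  set K := AlgebraicClosure k
  let T := e.toLinearEquiv.baseChange k K ρ.V ρ'.V
  have hT : ∀ σ x, T ((ρ.ρ σ).baseChange K x) = (ρ'.ρ σ).baseChange K (T x) := fun σ x => by
    induction x using TensorProduct.induction_on with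
    | zero => simp only [map_zero]
    | tmul a v =>
      rw [LinearMap.baseChange_tmul, LinearEquiv.baseChange_tmul, LinearEquiv.baseChange_tmul,
        LinearMap.baseChange_tmul, e.map_apply]
    | add x y hx hy => simp only [map_add, hx, hy]
  intro U hU
  have hstab : ∀ σ, ∀ x ∈ U.comap T.toLinearMap,
      (ρ.ρ σ).baseChange K x ∈ U.comap T.toLinearMap := fun σ x hx => by
    have hx' : T x ∈ U := hx
    show T _ ∈ U
    rw [hT]
    exact hU σ _ hx'
  rcases h (U.comap T.toLinearMap) hstab with h0 | h1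
  · left
    rw [eq_bot_iff]
    intro y hy
    have hy' : T.symm y ∈ U.comap T.toLinearMap := by
      show T _ ∈ U; rwa [LinearEquiv.apply_symm_apply]
    rw [h0] at hy'
    have := congrArg T ((Submodule.mem_bot _).mp hy')
    rw [LinearEquiv.apply_symm_apply, map_zero] at this
    exact (Submodule.mem_bot _).mpr this
  · right
    rw [eq_top_iff]
    intro y _
    have : T (T.symm y) ∈ U := (h1 ▸ Submodule.mem_top : T.symm y ∈ U.comap T.toLinearMap)
    rwa [LinearEquiv.apply_symm_apply] at this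

/-- An irreducible representation with an involution of determinant `-1` has split data. -/
theorem splitData_of_irreducible {ρ : ResidualGaloisRep k} (h2 : (2 : k) ≠ 0)
    (hirr : ρ.IsIrreducible) {c : Γ} (hc : c * c = 1) (hdet : LinearMap.det (ρ.ρ c) = -1) :
    SplitData ρ := by
  have hcc : ∀ x, ρ.ρ c (ρ.ρ c x) = x := fun x => by
    rw [← Module.End.mul_apply, ← map_mul, hc, map_one, Module.End.one_apply]
  have hne : (-1 : k) ≠ 1 := fun h => h2 (by linear_combination (-1 : k) * h)
  obtain ⟨v, hv, hv0⟩ : ∃ v, ρ.ρ c v = v ∧ v ≠ 0 := by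
    by_contra hall
    push Not at hall
    have hneg : ρ.ρ c = (-1 : k) • LinearMap.id := LinearMap.ext fun x => by
      have := hall (x + ρ.ρ c x) (by rw [map_add, hcc, add_comm])
      rw [LinearMap.smul_apply, LinearMap.id_apply, neg_one_smul, eq_neg_iff_add_eq_zero, add_comm,
        this]
    rw [hneg, LinearMap.det_smul, ρ.finrank_eq, LinearMap.det_id] at hdet
    exact hne (by linear_combination -hdet)
  obtain ⟨w, hw, hw0⟩ : ∃ w, ρ.ρ c w = -w ∧ w ≠ 0 := by
    by_contra hall
    push Not at hall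
    have hid : ρ.ρ c = LinearMap.id := LinearMap.ext fun x => by
      have := hall (x - ρ.ρ c x) (by rw [map_sub, hcc, neg_sub])
      rw [LinearMap.id_apply, eq_comm, ← sub_eq_zero, this]
    rw [hid, LinearMap.det_id] at hdet
    exact hne hdet.symm
  have hli : LinearIndependent k ![v, w] := by
    rw [LinearIndependent.pair_iff]
    intro s t hst
    have h' := congrArg (ρ.ρ c) hst
    rw [map_add, map_smul, map_smul, hv, hw, smul_neg, map_zero] at h'
    have hs : (2 * s) • v = 0 := by
      rw [two_mul, add_smul]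
      linear_combination (norm := module) hst + h'
    have hs0 : s = 0 :=
      (mul_eq_zero.mp ((smul_eq_zero.mp hs).resolve_right hv0)).resolve_left h2
    rw [hs0, zero_smul, zero_add] at hst
    exact ⟨hs0, (smul_eq_zero.mp hst).resolve_right hw0⟩
  let b := basisOfLinearIndependentOfCardEqFinrank hli (by rw [ρ.finrank_eq, Fintype.card_fin])
  have hb0 : b 0 = v := by simp [b]
  have hb1 : b 1 = w := by simp [b]
  have key : ∀ i j : Fin 2, i ≠ j → ∃ g : Γ, b.repr (ρ.ρ g (b i)) j ≠ 0 := by
    intro i j hij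
    by_contra hall
    push Not at hall
    have hstab : ∀ σ, ∀ x ∈ k ∙ b i, ρ.ρ σ x ∈ k ∙ b i := by
      intro σ x hx
      obtain ⟨a, rfl⟩ := Submodule.mem_span_singleton.mp hx
      rw [map_smul]
      refine Submodule.smul_mem _ _ (Submodule.mem_span_singleton.mpr ⟨b.repr (ρ.ρ σ (b i)) i, ?_⟩)
      conv_rhs => rw [← b.sum_repr (ρ.ρ σ (b i)), Fin.sum_univ_two]
      fin_cases i <;> fin_cases j
      · exact absurd rfl hij
      · simp only [Fin.zero_eta, Fin.mk_one, Fin.isValue] at hall ⊢; rw [hall σ]; simp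
      · simp only [Fin.zero_eta, Fin.mk_one, Fin.isValue] at hall ⊢; rw [hall σ]; simp
      · exact absurd rfl hij
    rcases hirr _ hstab with h | h
    · exact b.ne_zero i (by simpa using h)
    · have hmem : b j ∈ k ∙ b i := h ▸ Submodule.mem_top
      obtain ⟨a, ha⟩ := Submodule.mem_span_singleton.mp hmem
      have := congrArg (fun x => b.repr x j) ha
      simp [hij] at this
  obtain ⟨g, hg⟩ := key 0 1 (by decide)
  obtain ⟨g', hg'⟩ := key 1 0 (by decide)
  exact ⟨b, c, g, g', by rw [hb0, hv], by rw [hb1, hw], hg, hg'⟩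

end Fermat.Agent.Conductor
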