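import Fermat.Agent.Conductor.Relation

/-!
# Comparison of an adic representation with a curve

An adic representation whose Frobenius characteristic polynomials agree almost everywhere with
those of a curve agrees at every good prime (`charpoly_frobenius_eq`), and is unipotent on inertia
wherever the curve is (`charpoly_inertia_eq`).
-/

set_option autoImplicit false

noncomputable section

open WeierstrassCurve WeierstrassCurve.Affine.Point Polynomial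
open scoped WeierstrassCurve.Affine

namespace Fermat.Agent.Conductor

local notation "ℚbar" => AlgebraicClosure ℚ
local notation "Γ" => AlgebraicClosure ℚ ≃ₐ[ℚ] AlgebraicClosure ℚ

variable {O : Type} [CommRing O] [IsDomain O] [IsDiscreteValuationRing O] [CharZero O]
  {W : WeierstrassCurve ℤ} {p : ℕ}

omit [CharZero O] in
theorem eq_of_forall_sub_mem [IsAdicComplete (IsLocalRing.maximalIdeal O) O]
    (hpO : (p : O) ∈ IsLocalRing.maximalIdeal O) {x y : O}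
    (h : ∀ n : ℕ, x - y ∈ Ideal.span {((p : O)) ^ n}) : x = y := by
  refine sub_eq_zero.1 (IsHausdorff.haus (I := IsLocalRing.maximalIdeal O) inferInstance _ ?_)
  intro n
  rw [SModEq.zero, smul_eq_mul, Ideal.mul_top]
  exact (Ideal.span_singleton_le_iff_mem _).mpr (Ideal.pow_mem_pow hpO n) (h n)

omit [IsDomain O] [IsDiscreteValuationRing O] [CharZero O] in
theorem intCast_mem_span {n : ℕ} {x : ℤ} (h : ((p : ℤ)) ^ n ∣ x) :
    (x : O) ∈ Ideal.span {((p : O)) ^ n} := by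
  obtain ⟨k, rfl⟩ := h
  exact Ideal.mem_span_singleton.mpr ⟨(k : O), by push_cast; ring⟩

/-- Congruence of exponents of roots of unity. -/
theorem dvd_sub_of_forall_zpow_eq (hp : p.Prime) {n : ℕ} {d e : ℤ}
    (h : ∀ ζ : ℚbar, ζ ^ (p ^ n) = 1 → ζ ^ d = ζ ^ e) : ((p : ℤ)) ^ n ∣ d - e := by
  have : NeZero (p ^ n) := ⟨pow_ne_zero n hp.ne_zero⟩
  have : NeZero ((p ^ n : ℕ) : ℚbar) := ⟨Nat.cast_ne_zero.mpr (pow_ne_zero n hp.ne_zero)⟩
  obtain ⟨z, hz⟩ := HasEnoughRootsOfUnity.exists_primitiveRoot ℚbar (p ^ n)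
  have h1 : z ^ (d - e) = 1 := by
    rw [zpow_sub₀ (hz.ne_zero (NeZero.ne _)), h z hz.pow_eq_one, div_self]
    exact zpow_ne_zero _ (hz.ne_zero (NeZero.ne _))
  have := (hz.zpow_eq_one_iff_dvd _).mp h1
  exact_mod_cast this

variable [IsAdicComplete (IsLocalRing.maximalIdeal O) O]

/-- At good primes the characteristic polynomials agree. -/
theorem charpoly_frobenius_eq (hΔ : W.Δ ≠ 0) (hp : p.Prime)
    (hpO : (p : O) ∈ IsLocalRing.maximalIdeal O) (ρ : GaloisRepAdic O) (S : Finset ℕ)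
    (hfrob : ∀ ℓ : ℕ, ℓ.Prime → ℓ ∉ S → W.IsGoodPrimeFor ℓ → ℓ ≠ p →
      ∀ A : ValuationSubring ℚbar, A.LiesOverPrime ℓ → ∀ τ : Γ, A.IsFrobeniusAt τ ℓ →
        LinearMap.charpoly (ρ.ρ τ) = X ^ 2 - C ((W.apOfModel ℓ : ℤ) : O) * X + C ((ℓ : O)))
    {ℓ : ℕ} (hℓ : ℓ.Prime) (hgood : W.IsGoodPrimeFor ℓ) (hℓp : ℓ ≠ p)
    {A : ValuationSubring ℚbar} (hA : A.LiesOverPrime ℓ) {σ : Γ} (hσ : A.IsFrobeniusAt σ ℓ) :
    LinearMap.charpoly (ρ.ρ σ) = X ^ 2 - C ((W.apOfModel ℓ : ℤ) : O) * X + C ((ℓ : O)) := by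
  have key : ∀ n : ℕ, trO ρ σ - ((W.apOfModel ℓ : ℤ) : O) ∈ Ideal.span {((p : O)) ^ n} ∧
      detO ρ σ - ((ℓ : ℤ) : O) ∈ Ideal.span {((p : O)) ^ n} := by
    intro n
    obtain ⟨a, d, h1, h2, h3, h4⟩ := rel_of_forall_frobenius hΔ hp ρ S hfrob n σ
    have hℓn : ¬ ℓ ∣ p ^ n := fun hd =>
      hℓp ((Nat.prime_dvd_prime_iff_eq hℓ hp).mp (hℓ.dvd_of_dvd_pow hd))
    have hd : ((p : ℤ)) ^ n ∣ d - ℓ := dvd_sub_of_forall_zpow_eq hp fun ζ hζ => by
      rw [← h3 ζ hζ, zpow_natCast, Gal.apply_rootOfUnity_of_isFrobeniusAt hσ hℓ hA hℓn hζ]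
    obtain ⟨P, hP, hPord⟩ := exists_exact_order hΔ hp (n := n)
    -- apply both relations to `σ⁻¹ P`
    have hQ : p ^ n • (σ⁻¹ • P) = 0 := by
      show p ^ n • (Affine.Point.map (σ⁻¹ : Γ).toAlgHom P) = 0
      rw [← map_nsmul, hP, _root_.map_zero]
    have e1 := h4 _ hQ
    have e2 := frobenius_quadratic hℓ hgood hℓn hA hσ hQ
    have hdz : (d - (ℓ : ℤ)) • (σ⁻¹ • P) = 0 := by
      obtain ⟨k, hk⟩ := hd
      rw [hk, mul_comm, mul_zsmul, ← Nat.cast_pow, natCast_zsmul, hQ, zsmul_zero]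
    have ha : ((p : ℤ)) ^ n ∣ a - W.apOfModel ℓ := by
      refine hPord _ ?_
      rw [smul_inv_smul] at e1 e2
      have : (a - W.apOfModel ℓ) • P = (d - (ℓ : ℤ)) • (σ⁻¹ • P) := by
        rw [sub_zsmul, sub_zsmul, ← sub_eq_zero]
        calc _ = (σ • P - W.apOfModel ℓ • P + (ℓ : ℤ) • (σ⁻¹ • P)) -
              (σ • P - a • P + d • (σ⁻¹ • P)) := by abel
          _ = 0 := by rw [e1, e2, sub_zero]
      rw [this, hdz]
    refine ⟨?_, ?_⟩
    · simpa using Ideal.add_mem _ h1 (intCast_mem_span (O := O) ha)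
    · simpa using Ideal.add_mem _ h2 (intCast_mem_span (O := O) hd)
  rw [charpoly_eq, eq_of_forall_sub_mem hpO fun n => (key n).1,
    eq_of_forall_sub_mem hpO fun n => (key n).2, Int.cast_natCast]

/-- Inertia acting unipotently on the torsion of the curve acts unipotently through `ρ`. -/
theorem charpoly_inertia_eq (hΔ : W.Δ ≠ 0) (hp : p.Prime)
    (hpO : (p : O) ∈ IsLocalRing.maximalIdeal O) (ρ : GaloisRepAdic O) (S : Finset ℕ)
    (hfrob : ∀ ℓ : ℕ, ℓ.Prime → ℓ ∉ S → W.IsGoodPrimeFor ℓ → ℓ ≠ p →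
      ∀ A : ValuationSubring ℚbar, A.LiesOverPrime ℓ → ∀ τ : Γ, A.IsFrobeniusAt τ ℓ →
        LinearMap.charpoly (ρ.ρ τ) = X ^ 2 - C ((W.apOfModel ℓ : ℤ) : O) * X + C ((ℓ : O)))
    {σ : Γ} (hζ : ∀ (n : ℕ) (ζ : ℚbar), ζ ^ (p ^ n) = 1 → σ ζ = ζ)
    (hunip : ∀ (n : ℕ) (P : ((W.map (Int.castRingHom ℚ))⁄ℚbar).Point), p ^ n • P = 0 →
      σ • (σ • P - P) = σ • P - P) :
    LinearMap.charpoly (ρ.ρ σ) = (X - 1) ^ 2 := by
  have key : ∀ n : ℕ, trO ρ σ - ((2 : ℤ) : O) ∈ Ideal.span {((p : O)) ^ n} ∧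
      detO ρ σ - ((1 : ℤ) : O) ∈ Ideal.span {((p : O)) ^ n} := by
    intro n
    obtain ⟨a, d, h1, h2, h3, h4⟩ := rel_of_forall_frobenius hΔ hp ρ S hfrob n σ
    have hd : ((p : ℤ)) ^ n ∣ d - 1 := dvd_sub_of_forall_zpow_eq hp fun ζ hz => by
      rw [← h3 ζ hz, hζ n ζ hz, zpow_one]
    obtain ⟨P, hP, hPord⟩ := exists_exact_order hΔ hp (n := n)
    have hQ : p ^ n • (σ⁻¹ • P) = 0 := by
      show p ^ n • (Affine.Point.map (σ⁻¹ : Γ).toAlgHom P) = 0
      rw [← map_nsmul, hP, _root_.map_zero]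
    have e1 := h4 _ hQ
    have e2 := hunip n _ hQ
    have hdz : (d - 1) • (σ⁻¹ • P) = 0 := by
      obtain ⟨k, hk⟩ := hd
      rw [hk, mul_comm, mul_zsmul, ← Nat.cast_pow, natCast_zsmul, hQ, zsmul_zero]
    have ha : ((p : ℤ)) ^ n ∣ a - 2 := by
      refine hPord _ ?_
      rw [smul_inv_smul] at e1 e2
      have e2' : σ • P = P + (P - σ⁻¹ • P) := by
        have h := e2
        rw [smul_sub, smul_inv_smul] at h
        rw [← h]; abel
      have : (a - 2) • P = (d - 1) • (σ⁻¹ • P) := by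
        rw [e2'] at e1
        rw [← sub_eq_zero, sub_zsmul, sub_zsmul, one_zsmul, two_zsmul]
        calc _ = -(P + (P - σ⁻¹ • P) - a • P + d • (σ⁻¹ • P)) := by abel
          _ = 0 := by rw [e1, _root_.neg_zero]
      rw [this, hdz]
    refine ⟨?_, ?_⟩
    · simpa using Ideal.add_mem _ h1 (intCast_mem_span (O := O) ha)
    · simpa using Ideal.add_mem _ h2 (intCast_mem_span (O := O) hd)
  rw [charpoly_eq, eq_of_forall_sub_mem hpO fun n => (key n).1,
    eq_of_forall_sub_mem hpO fun n => (key n).2, Int.cast_ofNat, Int.cast_one, map_one,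
    Polynomial.C_ofNat]
  ring

end Fermat.Agent.Conductor
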