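import Fermat.Agent.Conductor.Main
import Fermat.Agent.S36

/-!
# Conductor matching for semistable curves

With the representations of S36, no square of a prime other than `p` divides the level of the
newform attached to a semistable curve with irreducible `E[p]`; so modularity at a cube-free level
`N` with `p² ∤ N` gives modularity at the conductor level (`isModularModelOfLevel_conductorLevel`).
-/

set_option autoImplicit false

noncomputable section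

open Polynomial CongruenceSubgroup ModularFormClass

namespace Fermat.Agent.Conductor

local notation "ℚbar" => AlgebraicClosure ℚ
local notation "Γ" => AlgebraicClosure ℚ ≃ₐ[ℚ] AlgebraicClosure ℚ

namespace AttachedNewform

variable {W : WeierstrassCurve ℤ} {M N : ℕ} [NeZero M] [NeZero N] (D : AttachedNewform W M N)

include D

/-- No square of a prime other than `p` divides the level. -/
theorem not_sq_dvd (hΔ : W.Δ ≠ 0) (hss : W.IsSemistableModel) (hMN : M ∣ N)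
    (hN3 : ∀ q : ℕ, q.Prime → ¬ q ^ 3 ∣ N) (p : ℕ) [Fact p.Prime] (hp2 : p ≠ 2)
    (hirr : W.ModRepIsIrreducible p) {q : ℕ} (hq : q.Prime) (hqp : q ≠ p) : ¬ q ^ 2 ∣ M := by
  intro hd
  have hp : p.Prime := Fact.out
  let S : Finset ℕ := insert p M.primeFactors
  have hMS : ∀ r : ℕ, r.Prime → r ∣ M → r ∈ S := fun r hr hrM =>
    Finset.mem_insert_of_mem (Nat.mem_primeFactors.mpr ⟨hr, hrM, NeZero.ne M⟩)
  have hpZ : ((p : ℕ) : ℤ_[p]) ∈ IsLocalRing.maximalIdeal ℤ_[p] := by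
    rw [PadicInt.maximalIdeal_eq_span_p]; exact Ideal.mem_span_singleton_self _
  have conv : ∀ (O : Type) [CommRing O] [IsLocalRing O] [Algebra ℤ_[p] O] (ρ : GaloisRepAdic O),
      (∀ (ℓ : ℕ) (hℓ : ℓ.Prime) (hℓlam : ℓ ≠ p) (hℓM : ¬ ℓ ∣ M) (hℓS : ℓ ∉ (↑S : Set ℕ)),
        ∀ A : ValuationSubring ℚbar, A.LiesOverPrime ℓ → ∀ σ : Γ, A.IsFrobeniusAt σ ℓ →
          LinearMap.charpoly (ρ.ρ σ) =
            X ^ 2 - C (algebraMap ℤ_[p] O (((D.iota hΔ ↑S ℤ_[p]).comp (D.chi ↑S).rangeRestrict)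
              (CuspForm.heckeAlgebra.T hℓ hℓM hℓS))) * X + C ((ℓ : O))) →
      ∀ ℓ : ℕ, ℓ.Prime → ℓ ∉ N.primeFactors → W.IsGoodPrimeFor ℓ → ℓ ≠ p →
        ∀ A : ValuationSubring ℚbar, A.LiesOverPrime ℓ → ∀ τ : Γ, A.IsFrobeniusAt τ ℓ →
          LinearMap.charpoly (ρ.ρ τ) = X ^ 2 - C ((W.apOfModel ℓ : ℤ) : O) * X + C ((ℓ : O)) :=
    fun O _ _ _ ρ h => D.charpoly_of_not_dvd hMN fun ℓ hℓ hℓM hℓp a ha A hA σ hσ => by
      have hℓS : ℓ ∉ (↑S : Set ℕ) := by simp [S, hℓp, hℓM]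
      rw [h ℓ hℓ hℓp hℓM hℓS A hA σ hσ, D.iota_T hΔ ℤ_[p] hℓ hℓM hℓS ha, map_intCast]
  obtain ⟨O, _, _, _, _, _, _, _, _, hloc, -, ρ, h1, h2⟩ :=
    Fermat.Agent.S36.result D.isNewform p S ℤ_[p] hpZ hp2
    (D.chi ↑S) (fun ℓ hℓ hℓM hℓS => Hecke.eigenCharacter_T D.isNewform.1 hℓ hℓM hℓS)
    (D.iota hΔ ↑S ℤ_[p]) (Finset.mem_insert_self _ _) hMS
    (fun O _ _ _ _ _ _ _ _ hloc hinj ρ hρ => by
      refine residual_absIrr_odd W hΔ p hp2 hirr ?_ ρ N.primeFactors (conv O ρ hρ)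
      have := map_nonunit (algebraMap ℤ_[p] O) _ hpZ
      rwa [map_natCast] at this)
  have hpO : (p : O) ∈ IsLocalRing.maximalIdeal O := by
    have := map_nonunit (algebraMap ℤ_[p] O) _ hpZ
    rwa [map_natCast] at this
  refine h2 q hq hqp ?_ (isUnipotentOnInertiaAt hΔ hss hp hpO ρ N.primeFactors
    (conv O ρ fun ℓ hℓ _ hℓM hℓS => h1 ℓ hℓ hℓM hℓS) hq hqp)
  refine le_antisymm ?_ ((Nat.Prime.pow_dvd_iff_le_factorization hq (NeZero.ne M)).mp hd)
  by_contra hlt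
  exact hN3 q hq (((Nat.Prime.pow_dvd_iff_le_factorization hq (NeZero.ne M)).mpr
    (by omega)).trans hMN)

end AttachedNewform

/-- A semistable curve with irreducible `E[p]`, modular of a cube-free level `N` with `p² ∤ N`,
is modular of its conductor level. -/
theorem isModularModelOfLevel_conductorLevel
    (W : WeierstrassCurve ℤ) (hss : W.IsSemistableModel) (N : ℕ)
    (p : ℕ) [Fact p.Prime] (hp2 : p ≠ 2) (hirr : W.ModRepIsIrreducible p)
    (hp2N : ¬ p ^ 2 ∣ N)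
    (hN : W.IsModularModelOfLevel N) (hbad : ∀ ℓ : ℕ, ℓ.Prime → (ℓ : ℤ) ∣ W.Δ → ℓ ∣ N)
    (hN3 : ∀ q : ℕ, q.Prime → ¬ q ^ 3 ∣ N) :
    W.IsModularModelOfLevel W.conductorLevel := by
  have hN0 : N ≠ 0 := fun h => hN3 2 Nat.prime_two (h ▸ dvd_zero _)
  have : NeZero N := ⟨hN0⟩
  have hΔ : W.Δ ≠ 0 := fun h => by
    obtain ⟨q, hqN, hq⟩ := Nat.exists_infinite_primes (N + 1)
    have := Nat.le_of_dvd (Nat.pos_of_ne_zero hN0) (hbad q hq (h ▸ dvd_zero _))
    omega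
  obtain ⟨f, hf, hfa⟩ := hN
  obtain ⟨M, hMN, g, hg, hga⟩ := Newform.exists_isNewform_goodEigensystem hf
  have : NeZero M := ⟨fun h => hN0 (by subst h; simpa using hMN)⟩
  let D : AttachedNewform W M N :=
    ⟨g, hg, fun ℓ hℓ hgood hℓN => (hga ℓ hℓ hℓN).trans (hfa ℓ hℓ hgood hℓN)⟩
  have hsq : ∀ q : ℕ, q.Prime → ¬ q ^ 2 ∣ M := fun q hq => by
    by_cases hqp : q = p
    · exact fun hd => hp2N (hqp ▸ hd.trans hMN)
    · exact D.not_sq_dvd hΔ hss hMN hN3 p hp2 hirr hq hqp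
  exact D.isModularModelOfLevel_conductorLevel hΔ hMN
    (Nat.squarefree_iff_prime_squarefree.mpr fun q hq hd => hsq q hq (by rwa [sq]))

end Fermat.Agent.Conductor
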