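import Fermat.Agent.EC.Reducible.Local
import Fermat.Agent.Multiplicative.Qbar
import Fermat.Agent.GalRep.Normalise
import Fermat.Agent.Conductor.Compare

/-!
# Unipotent inertia for semistable curves

On a semistable curve inertia away from `p` is unipotent on `p`-power torsion, hence on every
adic representation with the same Frobenius polynomials (`isUnipotentOnInertiaAt`).
-/

set_option autoImplicit false

noncomputable section

open WeierstrassCurve Polynomial
open scoped WeierstrassCurve.Affine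

namespace Fermat.Agent.Conductor

local notation "ℚbar" => AlgebraicClosure ℚ
local notation "Γ" => AlgebraicClosure ℚ ≃ₐ[ℚ] AlgebraicClosure ℚ

theorem sub_inZeroComponentAt {W : WeierstrassCurve ℤ} (hΔ : W.Δ ≠ 0) (hss : W.IsSemistableModel)
    {q : ℕ} (hq : q.Prime) {A : ValuationSubring ℚbar} (hA : A.LiesOverPrime q) {σ : Γ}
    (hσ : σ ∈ A.inertiaSubgroupIn ℚ) (P : ((W.map (Int.castRingHom ℚ))⁄ℚbar).Point) :
    W.InZeroComponentAt A (σ • P - P) := by
  by_cases hqΔ : (q : ℤ) ∣ W.Δ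
  · exact (Multiplicative.MultAt.mk hq hA hqΔ (hss q hq hqΔ) hΔ).smul_sub_inZeroComponentAt hσ P
  · exact EC.Reducible.inZeroComponentAt_of_good hq hA hqΔ _

/-- An adic representation with the Frobenius polynomials of a semistable curve is unipotent on
inertia away from `p`. -/
theorem isUnipotentOnInertiaAt {O : Type} [CommRing O] [IsDomain O] [IsDiscreteValuationRing O]
    [CharZero O] [IsAdicComplete (IsLocalRing.maximalIdeal O) O] {W : WeierstrassCurve ℤ}
    (hΔ : W.Δ ≠ 0) (hss : W.IsSemistableModel) {p : ℕ} (hp : p.Prime)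
    (hpO : (p : O) ∈ IsLocalRing.maximalIdeal O) (ρ : GaloisRepAdic O) (S : Finset ℕ)
    (hfrob : ∀ ℓ : ℕ, ℓ.Prime → ℓ ∉ S → W.IsGoodPrimeFor ℓ → ℓ ≠ p →
      ∀ A : ValuationSubring ℚbar, A.LiesOverPrime ℓ → ∀ τ : Γ, A.IsFrobeniusAt τ ℓ →
        LinearMap.charpoly (ρ.ρ τ) = X ^ 2 - C ((W.apOfModel ℓ : ℤ) : O) * X + C ((ℓ : O)))
    {q : ℕ} (hq : q.Prime) (hqp : q ≠ p) : ρ.IsUnipotentOnInertiaAt q := by
  intro A hA σ hσ
  have hn : ∀ n : ℕ, ¬ q ∣ p ^ n := fun n hd =>
    hqp ((Nat.prime_dvd_prime_iff_eq hq hp).mp (hq.dvd_of_dvd_pow hd))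
  refine charpoly_inertia_eq hΔ hp hpO ρ S hfrob
    (fun n ζ hζ => GalRep.inertia_apply_rootOfUnity hq (hn n) hA hσ hζ) fun n P hP => ?_
  refine EC.Reduction.smul_eq_of_inZeroComponentAt hq hA (hn n) hσ
    (sub_inZeroComponentAt hΔ hss hq hA hσ P) ?_
  have h1 : p ^ n • (σ • P) = 0 := by
    show p ^ n • (Affine.Point.map σ.toAlgHom P) = 0
    rw [← map_nsmul, hP, map_zero]
  rw [nsmul_sub, h1, hP, sub_zero]

end Fermat.Agent.Conductor
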