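import Mathlib
import Fermat.Agent.Gal.Places

/-!
# Involutions of `ℚ̄` and roots of unity

A nontrivial involution of `ℚ̄` inverts the roots of unity of odd prime order
(`involution_apply_rootOfUnity`; the fixed field is formally real).
-/

set_option autoImplicit false

noncomputable section

namespace Fermat.Agent.Conductor

local notation "ℚbar" => AlgebraicClosure ℚ
local notation "Γ" => AlgebraicClosure ℚ ≃ₐ[ℚ] AlgebraicClosure ℚ

variable {c : Γ}

theorem involution_apply_apply (hc : c * c = 1) (x : ℚbar) : c (c x) = x := by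
  rw [← AlgEquiv.mul_apply, hc, AlgEquiv.one_apply]

theorem involution_sqrt_neg_one (hc : c * c = 1) (hc1 : c ≠ 1) {i : ℚbar} (hi : i ^ 2 = -1) :
    c i = -i := by
  have h1 : c i ^ 2 = i ^ 2 := by rw [← map_pow, hi, map_neg, map_one]
  rcases sq_eq_sq_iff_eq_or_eq_neg.mp h1 with h | h
  swap
  · exact h
  exfalso
  obtain ⟨x, hx⟩ : ∃ x, c x ≠ x := by
    by_contra hall
    push Not at hall
    exact hc1 (AlgEquiv.ext hall)
  -- an element negated by `c`
  set y := x - c x with hy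
  have hy0 : y ≠ 0 := sub_ne_zero.mpr (Ne.symm hx)
  have hcy : c y = -y := by rw [hy, map_sub, involution_apply_apply hc, neg_sub]
  obtain ⟨z, hz⟩ := IsAlgClosed.exists_pow_nat_eq y (n := 2) (by norm_num)
  have hz0 : z ≠ 0 := by rintro rfl; exact hy0 (by rw [← hz]; simp)
  have hcz : c z ^ 2 = (i * z) ^ 2 := by
    rw [← map_pow, hz, hcy, mul_pow, hi, hz]; ring
  rcases sq_eq_sq_iff_eq_or_eq_neg.mp hcz with hcz | hcz
  · have h3 := involution_apply_apply hc z
    rw [hcz, map_mul, h, hcz, ← mul_assoc, ← sq, hi, neg_one_mul] at h3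
    exact hz0 (by linear_combination (norm := ring_nf) (-1 / 2 : ℚbar) * h3)
  · have h3 := involution_apply_apply hc z
    rw [hcz, map_neg, map_mul, h, hcz, mul_neg, neg_neg, ← mul_assoc, ← sq, hi, neg_one_mul] at h3
    exact hz0 (by linear_combination (norm := ring_nf) (-1 / 2 : ℚbar) * h3)

/-- A sum of two squares of fixed elements is the square of a fixed element. -/
theorem exists_fixed_sq_eq_add (hc : c * c = 1) (hc1 : c ≠ 1) {a b : ℚbar} (ha : c a = a)
    (hb : c b = b) : ∃ s : ℚbar, c s = s ∧ s ^ 2 = a ^ 2 + b ^ 2 := by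
  obtain ⟨i, hi⟩ := IsAlgClosed.exists_pow_nat_eq (-1 : ℚbar) (n := 2) (by norm_num)
  obtain ⟨w, hw⟩ := IsAlgClosed.exists_pow_nat_eq (a + b * i) (n := 2) (by norm_num)
  refine ⟨w * c w, by rw [map_mul, involution_apply_apply hc, mul_comm], ?_⟩
  rw [mul_pow, ← map_pow, hw, map_add, map_mul, ha, hb, involution_sqrt_neg_one hc hc1 hi]
  linear_combination (-b ^ 2) * hi

theorem exists_fixed_sq_eq_sum (hc : c * c = 1) (hc1 : c ≠ 1) {ι : Type*} (S : Finset ι)
    (f : ι → ℚbar) (hf : ∀ j ∈ S, c (f j) = f j) :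
    ∃ s : ℚbar, c s = s ∧ s ^ 2 = ∑ j ∈ S, f j ^ 2 := by
  classical
  induction S using Finset.induction_on with
  | empty => exact ⟨0, map_zero c, by simp⟩
  | @insert j T hj ih =>
    obtain ⟨s, hs, hs2⟩ := ih fun k hk => hf k (Finset.mem_insert_of_mem hk)
    obtain ⟨t, ht, ht2⟩ := exists_fixed_sq_eq_add hc hc1 (hf j (Finset.mem_insert_self _ _)) hs
    exact ⟨t, ht, by rw [ht2, hs2, Finset.sum_insert hj]⟩

/-- An involution inverts every root of unity of odd prime order. -/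
theorem involution_apply_rootOfUnity (hc : c * c = 1) (hc1 : c ≠ 1) {p : ℕ} (hp : p.Prime)
    (hp2 : p ≠ 2) {ζ : ℚbar} (hζ : ζ ^ p = 1) : c ζ = ζ⁻¹ := by
  by_cases h1 : ζ = 1
  · simp [h1]
  have : NeZero p := ⟨hp.ne_zero⟩
  have hprim : IsPrimitiveRoot ζ p :=
    IsPrimitiveRoot.iff_orderOf.mpr
      (@orderOf_eq_prime _ _ _ _ ⟨hp⟩ hζ h1)
  have hcζ : (c ζ) ^ p = 1 := by rw [← map_pow, hζ, map_one]
  obtain ⟨e, he, hce⟩ := hprim.eq_pow_of_pow_eq_one hcζ
  have hee : ζ ^ (e * e) = ζ := by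
    have := involution_apply_apply hc ζ
    rw [← hce, map_pow, ← hce, ← pow_mul] at this
    exact this
  have hmod : e * e ≡ 1 [MOD p] := by
    have h : ζ ^ (e * e % p) = ζ ^ 1 := by rw [pow_one, ← pow_eq_pow_mod _ hζ, hee]
    have h2 := hprim.pow_inj (Nat.mod_lt _ hp.pos) hp.one_lt h
    rw [Nat.ModEq, h2, Nat.mod_eq_of_lt hp.one_lt]
  -- `e ≡ ±1`
  have : Fact p.Prime := ⟨hp⟩
  have he2 : ((e : ZMod p)) * e = 1 := by
    exact_mod_cast (ZMod.natCast_eq_natCast_iff _ _ _).mpr hmod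
  rcases mul_self_eq_one_iff.mp he2 with h | h
  · -- `c ζ = ζ`: then `-1` would be a square fixed by `c`
    exfalso
    have hcz : c ζ = ζ := by
      rw [← hce]
      have he1 : e = 1 := by
        have h' : e ≡ 1 [MOD p] := (ZMod.natCast_eq_natCast_iff _ _ _).mp (by simpa using h)
        rwa [Nat.ModEq, Nat.mod_eq_of_lt he, Nat.mod_eq_of_lt hp.one_lt] at h'
      rw [he1, pow_one]
    obtain ⟨k, hk⟩ := hp.odd_of_ne_two hp2
    have hp1 : 1 < p := hp.one_lt
    have hsum : ∑ j ∈ Finset.range p, ζ ^ j = 0 := hprim.geom_sum_eq_zero hp1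
    set η := ζ ^ (k + 1)
    have hη : η ^ 2 = ζ := by
      rw [← pow_mul, show (k + 1) * 2 = p + 1 by omega, pow_succ, hζ, one_mul]
    obtain ⟨s, hs, hs2⟩ := exists_fixed_sq_eq_sum hc hc1 (Finset.Ico 1 p) (fun j => η ^ j)
      (fun j _ => by rw [map_pow, map_pow, hcz])
    have hs' : s ^ 2 = -1 := by
      rw [hs2, eq_neg_iff_add_eq_zero, ← hsum, Finset.range_eq_Ico,
        Finset.sum_eq_sum_Ico_succ_bot (show 0 < p by omega), pow_zero, add_comm]
      refine congrArg _ (Finset.sum_congr rfl fun j _ => ?_)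
      rw [← pow_mul, mul_comm, pow_mul, hη]
    have := involution_sqrt_neg_one hc hc1 hs'
    rw [hs] at this
    have hs0 : s = 0 := by linear_combination (norm := ring_nf) (1 / 2 : ℚbar) * this
    rw [hs0] at hs'
    simp at hs'
  · have h0 : ((e + 1 : ℕ) : ZMod p) = 0 := by push_cast; rw [h]; ring
    obtain ⟨m, hm⟩ := (ZMod.natCast_eq_zero_iff _ _).mp h0
    refine eq_inv_of_mul_eq_one_left ?_
    rw [← hce, ← pow_succ, hm, pow_mul, hζ, one_pow]

end Fermat.Agent.Conductor
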