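import Mathlib
import Fermat.Prelude.Def_FLTPrelim_Modularity

/-!
# A trivial bound on the trace of Frobenius

A Weierstrass cubic over `𝔽_q` has at most `2q + 1` points, so `|a_q| ≤ q`; in particular
`a_q ≠ ±(q + 1)` (`apOfModel_ne`).
-/

set_option autoImplicit false

namespace Fermat.Agent.Conductor

open WeierstrassCurve

/-- A Weierstrass cubic over a finite field has at most `2q + 1` points. -/
theorem card_le_two_mul_add_one {F : Type} [Field F] [Finite F] (W : WeierstrassCurve F) :
    Nat.card W.toAffine.Point ≤ 2 * Nat.card F + 1 := by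
  classical
  have : Fintype F := Fintype.ofFinite F
  let y₀ : F → F := fun x => if h : ∃ y, W.toAffine.Equation x y then h.choose else 0
  let e : W.toAffine.Point → Option (F × Bool) := fun P => match P with
    | .zero => none
    | .some x y _ => some (x, decide (y = y₀ x))
  have he : Function.Injective e := by
    rintro (_ | ⟨x, y, h⟩) (_ | ⟨x', y', h'⟩) hh <;> simp only [e] at hh
    · rfl
    · exact absurd hh.symm (Option.some_ne_none _)
    · exact absurd hh (Option.some_ne_none _)
    simp only [Option.some.injEq, Prod.mk.injEq, decide_eq_decide] at hh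
    obtain ⟨rfl, hiff⟩ := hh
    suffices y = y' by subst this; rfl
    have hex : ∃ y, W.toAffine.Equation x y := ⟨y, h.1⟩
    have h0 : W.toAffine.Equation x (y₀ x) := by
      simp only [y₀, dif_pos hex]; exact hex.choose_spec
    by_cases hy : y = y₀ x
    · rw [hy, hiff.mp hy]
    · have hy' : y' ≠ y₀ x := fun h => hy (hiff.mpr h)
      rw [(Affine.Y_eq_of_X_eq h.1 h0 rfl).resolve_left hy,
        (Affine.Y_eq_of_X_eq h'.1 h0 rfl).resolve_left hy']
  refine le_trans (Nat.card_le_card_of_injective e he) ?_
  rw [Nat.card_eq_fintype_card, Nat.card_eq_fintype_card, Fintype.card_option, Fintype.card_prod,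
    Fintype.card_bool, mul_comm]

/-- The trace of Frobenius is never `±(q + 1)`. -/
theorem apOfModel_ne (W : WeierstrassCurve ℤ) {q : ℕ} (hq : q.Prime) :
    W.apOfModel q ≠ (q : ℤ) + 1 ∧ W.apOfModel q ≠ -((q : ℤ) + 1) := by
  have : Fact q.Prime := ⟨hq⟩
  have hle := card_le_two_mul_add_one (W.reductionMod q)
  have hpos : 1 ≤ Nat.card (W.reductionMod q).toAffine.Point :=
    Nat.card_pos (α := (W.reductionMod q).toAffine.Point)
  rw [Nat.card_zmod] at hle
  simp only [apOfModel, traceOfFrobenius, WeierstrassCurve.card, Nat.card_zmod]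
  constructor <;> omega

end Fermat.Agent.Conductor
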