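import Fermat.Agent.Conductor.Relation
import Fermat.Agent.Conductor.AbsIrred
import Fermat.Agent.Conductor.Involution
import Fermat.Agent.Density.BrauerNesbitt
import Fermat.Agent.EC.Frobenius.Model
import Fermat.Prelude.Def_GaloisRep_ComplexConjugation
import Fermat.Prelude.Def_FLTPrelim_ModularRep

/-!
# The residual representation of a curve-like adic representation

The residual representation of an adic representation with the Frobenius polynomials of a curve
with irreducible mod `p` representation, `p` odd, is absolutely irreducible and odd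
(`residual_absIrr_odd`): it is `W[p]` over the residue field (`exists_residual_isEquiv`).
-/

set_option autoImplicit false

noncomputable section

open WeierstrassCurve WeierstrassCurve.Affine.Point Polynomial
open scoped WeierstrassCurve.Affine TensorProduct

namespace Fermat.Agent.Conductor

local notation "ℚbar" => AlgebraicClosure ℚ
local notation "Γ" => AlgebraicClosure ℚ ≃ₐ[ℚ] AlgebraicClosure ℚ

theorem complexConjugation_ne_one : complexConjugation ≠ (1 : Γ) := by
  intro h
  obtain ⟨i, hi⟩ := IsAlgClosed.exists_pow_nat_eq (-1 : ℚbar) (n := 2) (by norm_num)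
  have hc := complexEmbedding_complexConjugation i
  rw [h, AlgEquiv.one_apply] at hc
  have hre := Complex.conj_eq_iff_im.mp hc.symm
  have hsq : complexEmbedding i ^ 2 = -1 := by rw [← map_pow, hi, map_neg, map_one]
  have := congrArg Complex.re hsq
  simp only [sq, Complex.mul_re, hre, Complex.neg_re, Complex.one_re] at this
  nlinarith [mul_self_nonneg (complexEmbedding i).re]

/-- The determinant on `E[p]` of an involution is `-1`. -/
theorem det_involution (W : WeierstrassCurve ℤ) (hΔ : W.Δ ≠ 0) (p : ℕ) [Fact p.Prime]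
    (hp2 : p ≠ 2) {c : Γ} (hc : c * c = 1) (hc1 : c ≠ 1) :
    LinearMap.det (galoisRepModuleEnd (K := ℚbar) ℚ (W.map (Int.castRingHom ℚ)).toAffine p c) =
      (-1 : ZMod p) := by
  have hp : p.Prime := Fact.out
  have : NeZero p := ⟨hp.ne_zero⟩
  have : NeZero ((p : ℕ) : ℚbar) := ⟨Nat.cast_ne_zero.mpr hp.ne_zero⟩
  have hn : Nat.card (rootsOfUnity p ℚbar) = p := IsAlgClosed.card_rootsOfUnity_eq ℚbar p
  rw [← EC.Frobenius.coe_galoisRepDet,
    EC.Frobenius.galoisRepDetEqCyclotomic_intModel W hΔ p hn c]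
  refine (modularCyclotomicCharacter.unique ℚbar hn _ fun t ht => ?_).symm
  have htt : (t : ℚbar) ^ p = 1 := by
    rw [← Units.val_pow_eq_pow_val, (mem_rootsOfUnity p t).mp ht, Units.val_one]
  change c (t : ℚbar) = _
  rw [involution_apply_rootOfUnity hc hc1 hp hp2 htt]
  obtain ⟨m, rfl⟩ : ∃ m, p = m + 1 := ⟨p - 1, by have := hp.pos; omega⟩
  rw [ZMod.val_neg_one]
  rw [pow_succ] at htt
  exact (eq_inv_of_mul_eq_one_left htt).symm

/-- The mod `p` representation `W[p]`. -/
def torsionRep (W : WeierstrassCurve ℤ) (hΔ : W.Δ ≠ 0) (p : ℕ) [Fact p.Prime] :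
    ResidualGaloisRep (ZMod p) :=
  have := EC.Frobenius.isElliptic_map_rat hΔ
  have hp : p ≠ 0 := (Fact.out : p.Prime).ne_zero
  (W.map (Int.castRingHom ℚ)).residualGaloisRepOf p
    (Isogeny.card_torsionBy_baseChange (K := ℚbar) (W.map (Int.castRingHom ℚ)) (n := p)
      (Nat.cast_ne_zero.mpr hp))
    (EC.Frobenius.galoisFactorsThroughFiniteLevel_torsion (W.map (Int.castRingHom ℚ)) hp)

variable {O : Type} [CommRing O] [IsLocalRing O]

/-- If the Frobenius polynomials of `ρ` are congruent to those of `W` and `W[p]` is irreducible, `p`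
odd, then `W[p]` over the residue field is absolutely irreducible and equivalent to the residual
representation of `ρ`. -/
theorem exists_residual_isEquiv (W : WeierstrassCurve ℤ) (hΔ : W.Δ ≠ 0) (p : ℕ) [Fact p.Prime]
    (hp2 : p ≠ 2) (hirr : W.ModRepIsIrreducible p)
    (hpO : (p : O) ∈ IsLocalRing.maximalIdeal O) (ρ : GaloisRepAdic O) (S : Finset ℕ)
    (hfrob : ∀ ℓ : ℕ, ℓ.Prime → ℓ ∉ S → W.IsGoodPrimeFor ℓ → ℓ ≠ p →
      ∀ A : ValuationSubring ℚbar, A.LiesOverPrime ℓ → ∀ τ : Γ, A.IsFrobeniusAt τ ℓ →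
        ∃ t : O, t - ((W.apOfModel ℓ : ℤ) : O) ∈ IsLocalRing.maximalIdeal O ∧
          LinearMap.charpoly (ρ.ρ τ) = X ^ 2 - C t * X + C ((ℓ : O))) :
    ∃ φ : ZMod p →+* IsLocalRing.ResidueField O,
      ((torsionRep W hΔ p).baseChangeAlong φ).IsAbsolutelyIrreducible ∧
        ((torsionRep W hΔ p).baseChangeAlong φ).IsEquiv ρ.residual := by
  have hp : p.Prime := Fact.out
  have := EC.Frobenius.isElliptic_map_rat hΔ
  set k := IsLocalRing.ResidueField O
  have hk0 : ((p : ℕ) : k) = 0 := by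
    rw [← map_natCast (IsLocalRing.residue O), IsLocalRing.residue_eq_zero_iff]; exact hpO
  have : CharP k p := (CharP.charP_iff_prime_eq_zero hp).mpr hk0
  let φ : ZMod p →+* k := ZMod.castHom (dvd_refl p) k
  have h2p : ((2 : ℕ) : ZMod p) ≠ 0 := by
    rw [ne_eq, ZMod.natCast_eq_zero_iff]
    exact fun h => hp2 ((Nat.prime_dvd_prime_iff_eq hp Nat.prime_two).mp h)
  have h2 : (2 : k) ≠ 0 := by
    have := (map_ne_zero φ).mpr h2p
    rwa [map_natCast, Nat.cast_ofNat] at this
  set R := torsionRep W hΔ p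
  have hsplit : SplitData R :=
    splitData_of_irreducible (by exact_mod_cast h2p) (fun U hU => hirr.2 U hU)
      complexConjugation_mul_self (det_involution W hΔ p hp2 complexConjugation_mul_self
        complexConjugation_ne_one)
  have habs : (R.baseChangeAlong φ).IsAbsolutelyIrreducible :=
    (hsplit.baseChangeAlong φ).isAbsolutelyIrreducible h2
  refine ⟨φ, habs, Density.residual_isEquiv_of_forall_frobenius _ ρ.residual habs
    (↑(S ∪ insert p W.Δ.natAbs.primeFactors) : Set ℕ) (Finset.finite_toSet _)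
    fun ℓ hℓ hℓS A hA τ hτ => ?_⟩
  simp only [Finset.coe_union, Finset.coe_insert, Set.mem_union, Set.mem_insert_iff,
    Finset.mem_coe, Nat.mem_primeFactors, not_or] at hℓS
  have hgood : W.IsGoodPrimeFor ℓ := fun hd =>
    hℓS.2.2 ⟨hℓ, Int.natCast_dvd.mp hd, Int.natAbs_ne_zero.mpr hΔ⟩
  let : Algebra (ZMod p) k := φ.toAlgebra
  have hR : LinearMap.charpoly (R.ρ τ) =
      X ^ 2 - C (W.apOfModel ℓ : ZMod p) * X + C (ℓ : ZMod p) := by
    have := EC.Frobenius.moduleFinite_torsion (W.map (Int.castRingHom ℚ)) p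
    exact (EC.Frobenius.trace_det_charpoly_of_isIntegralModelOf
      (EC.Frobenius.isIntegralModelOf_map W) hℓ hgood (Ne.symm hℓS.2.1) hA hτ).2.2
  obtain ⟨t, ht, hρ⟩ := hfrob ℓ hℓ hℓS.1 hgood hℓS.2.1 A hA τ hτ
  have htk : algebraMap O k t = ((W.apOfModel ℓ : ℤ) : k) := by
    rw [← map_intCast (algebraMap O k), ← sub_eq_zero, ← map_sub]
    exact (IsLocalRing.residue_eq_zero_iff _).mpr ht
  change LinearMap.charpoly ((R.ρ τ).baseChange k) = LinearMap.charpoly ((ρ.ρ τ).baseChange k)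
  rw [LinearMap.charpoly_baseChange, LinearMap.charpoly_baseChange, hR, hρ]
  simp [Polynomial.map_sub, Polynomial.map_add, Polynomial.map_mul, Polynomial.map_pow, htk]

/-- With irreducible `E[p]`, `p` odd, the residual representation is absolutely irreducible
and odd. -/
theorem residual_absIrr_odd (W : WeierstrassCurve ℤ) (hΔ : W.Δ ≠ 0) (p : ℕ) [Fact p.Prime]
    (hp2 : p ≠ 2) (hirr : W.ModRepIsIrreducible p)
    (hpO : (p : O) ∈ IsLocalRing.maximalIdeal O) (ρ : GaloisRepAdic O) (S : Finset ℕ)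
    (hfrob : ∀ ℓ : ℕ, ℓ.Prime → ℓ ∉ S → W.IsGoodPrimeFor ℓ → ℓ ≠ p →
      ∀ A : ValuationSubring ℚbar, A.LiesOverPrime ℓ → ∀ τ : Γ, A.IsFrobeniusAt τ ℓ →
        LinearMap.charpoly (ρ.ρ τ) = X ^ 2 - C ((W.apOfModel ℓ : ℤ) : O) * X + C ((ℓ : O))) :
    ρ.residual.IsAbsolutelyIrreducible ∧ ρ.residual.IsOdd := by
  obtain ⟨φ, habs, ⟨e⟩⟩ := exists_residual_isEquiv W hΔ p hp2 hirr hpO ρ S
    fun ℓ h1 h2 h3 h4 A hA τ hτ =>
      ⟨_, by rw [sub_self]; exact zero_mem _, hfrob ℓ h1 h2 h3 h4 A hA τ hτ⟩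
  refine ⟨isAbsolutelyIrreducible_of_equiv ⟨e⟩ habs, fun c hc hc1 => ?_⟩
  let : Algebra (ZMod p) (IsLocalRing.ResidueField O) := φ.toAlgebra
  have hconj : ρ.residual.ρ c = e.toLinearEquiv.toLinearMap ∘ₗ
      ((torsionRep W hΔ p).baseChangeAlong φ).ρ c ∘ₗ e.toLinearEquiv.symm.toLinearMap :=
    LinearMap.ext fun x => by simp [e.map_apply]
  rw [hconj, LinearMap.det_conj]
  change LinearMap.det (((torsionRep W hΔ p).ρ c).baseChange (IsLocalRing.ResidueField O)) = -1
  rw [LinearMap.det_baseChange]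
  have hd : LinearMap.det ((torsionRep W hΔ p).ρ c) = (-1 : ZMod p) :=
    det_involution W hΔ p hp2 hc hc1
  rw [hd, map_neg, map_one]

end Fermat.Agent.Conductor
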