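import Fermat.Agent.Conductor.Rational
import Fermat.Agent.Conductor.PointBound
import Fermat.Agent.Conductor.Inertia
import Fermat.Agent.Conductor.Residual
import Fermat.Agent.S35
import Fermat.Prelude.Def_CuspForm_HeckeGaloisRepDatum
import Fermat.Prelude.Def_WeierstrassCurve_ConductorLevel

/-!
# Newforms attached to a curve

For a newform with the good Frobenius traces of a curve `W` at almost all primes
(`AttachedNewform`), the representations of S35 give the traces at all good primes outside the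
level (`AttachedNewform.coeff_eq`) and show that primes exactly dividing the level are bad.  Hence
a squarefree level can be replaced by the conductor level
(`AttachedNewform.isModularModelOfLevel_conductorLevel`).
-/

set_option autoImplicit false

noncomputable section

open Polynomial CongruenceSubgroup ModularFormClass

namespace Fermat.Agent.Conductor

local notation "ℚbar" => AlgebraicClosure ℚ
local notation "Γ" => AlgebraicClosure ℚ ≃ₐ[ℚ] AlgebraicClosure ℚ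

/-- A newform having the good Frobenius traces of `W` at almost all primes. -/
structure AttachedNewform (W : WeierstrassCurve ℤ) (M N : ℕ) where
  g : CuspForm (Gamma0 M) 2
  isNewform : g.IsNewform
  coeff : ∀ ℓ : ℕ, ℓ.Prime → W.IsGoodPrimeFor ℓ → ¬ ℓ ∣ N → qCoeff ⇑g ℓ = (W.apOfModel ℓ : ℂ)

namespace AttachedNewform

variable {W : WeierstrassCurve ℤ} {M N : ℕ} [NeZero M] [NeZero N] (D : AttachedNewform W M N)

include D

theorem exists_int (hΔ : W.Δ ≠ 0) (S : Set ℕ) (t : CuspForm.heckeAlgebra M 2 S) :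
    ∃ m : ℤ, Hecke.eigenCharacter D.isNewform.1 S t = (m : ℂ) := by
  refine exists_int_eigenCharacter D.isNewform (N.primeFactors ∪ W.Δ.natAbs.primeFactors)
    (fun ℓ hℓ hℓM hℓS => ⟨W.apOfModel ℓ, ?_⟩) S t
  simp only [Finset.mem_union, Nat.mem_primeFactors, not_or] at hℓS
  exact D.coeff ℓ hℓ (fun hd => hℓS.2 ⟨hℓ, Int.natCast_dvd.mp hd, Int.natAbs_ne_zero.mpr hΔ⟩)
    fun hd => hℓS.1 ⟨hℓ, hd, NeZero.ne N⟩

/-- The eigencharacter away from `S`. -/
def chi (S : Set ℕ) : CuspForm.heckeAlgebra M 2 S →+* ℂ :=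
  Hecke.eigenCharacter D.isNewform.1 S

/-- Its values read in a ring of characteristic zero. -/
def iota (hΔ : W.Δ ≠ 0) (S : Set ℕ) (R : Type) [CommRing R] : (D.chi S).range →+* R :=
  (Int.castRingHom R).comp
    { toFun := fun x => (D.exists_int hΔ S x.2.choose).choose
      map_one' := by
        apply Int.cast_injective (α := ℂ)
        rw [← (D.exists_int hΔ S _).choose_spec, Int.cast_one]
        exact (1 : (D.chi S).range).2.choose_spec
      map_mul' := fun x y => by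
        apply Int.cast_injective (α := ℂ)
        rw [Int.cast_mul, ← (D.exists_int hΔ S _).choose_spec, ← (D.exists_int hΔ S _).choose_spec,
          ← (D.exists_int hΔ S _).choose_spec]
        exact (x * y).2.choose_spec.trans
          (congrArg₂ (· * ·) x.2.choose_spec.symm y.2.choose_spec.symm)
      map_zero' := by
        apply Int.cast_injective (α := ℂ)
        rw [← (D.exists_int hΔ S _).choose_spec, Int.cast_zero]
        exact (0 : (D.chi S).range).2.choose_spec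
      map_add' := fun x y => by
        apply Int.cast_injective (α := ℂ)
        rw [Int.cast_add, ← (D.exists_int hΔ S _).choose_spec, ← (D.exists_int hΔ S _).choose_spec,
          ← (D.exists_int hΔ S _).choose_spec]
        exact (x + y).2.choose_spec.trans
          (congrArg₂ (· + ·) x.2.choose_spec.symm y.2.choose_spec.symm) }

theorem iota_T (hΔ : W.Δ ≠ 0) {S : Set ℕ} (R : Type) [CommRing R] {ℓ : ℕ} (hℓ : ℓ.Prime)
    (hℓM : ¬ ℓ ∣ M) (hℓS : ℓ ∉ S) {a : ℤ} (ha : qCoeff ⇑D.g ℓ = (a : ℂ)) :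
    ((D.iota hΔ S R).comp (D.chi S).rangeRestrict) (CuspForm.heckeAlgebra.T hℓ hℓM hℓS) =
      (a : R) := by
  set x := (D.chi S).rangeRestrict (CuspForm.heckeAlgebra.T hℓ hℓM hℓS)
  show ((D.exists_int hΔ S x.2.choose).choose : R) = (a : R)
  congr 1
  apply Int.cast_injective (α := ℂ)
  rw [← (D.exists_int hΔ S _).choose_spec, ← ha,
    ← Hecke.eigenCharacter_T D.isNewform.1 hℓ hℓM hℓS]
  exact x.2.choose_spec

/-- The coefficient at a prime outside the level is an integer. -/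
theorem exists_int_coeff (hΔ : W.Δ ≠ 0) {ℓ : ℕ} (hℓ : ℓ.Prime) (hℓM : ¬ ℓ ∣ M) :
    ∃ a : ℤ, qCoeff ⇑D.g ℓ = (a : ℂ) := by
  obtain ⟨m, hm⟩ := D.exists_int hΔ ∅ (CuspForm.heckeAlgebra.T hℓ hℓM (Set.notMem_empty _))
  exact ⟨m, (Hecke.eigenCharacter_T D.isNewform.1 hℓ hℓM _).symm.trans hm⟩

/-- The representation at `lam`, with its values at Frobenius elements and at primes exactly
dividing the level. -/
theorem exists_rep (hΔ : W.Δ ≠ 0) (lam : ℕ) [Fact lam.Prime] :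
    ∃ (O : Type) (_ : CommRing O) (_ : IsDomain O) (_ : IsDiscreteValuationRing O)
      (_ : IsAdicComplete (IsLocalRing.maximalIdeal O) O) (_ : CharZero O),
      (lam : O) ∈ IsLocalRing.maximalIdeal O ∧ ∃ ρ : GaloisRepAdic O,
        (∀ ℓ : ℕ, ℓ.Prime → ¬ ℓ ∣ M → ℓ ≠ lam → ∀ a : ℤ, qCoeff ⇑D.g ℓ = (a : ℂ) →
          ∀ A : ValuationSubring ℚbar, A.LiesOverPrime ℓ → ∀ σ : Γ, A.IsFrobeniusAt σ ℓ →
            LinearMap.charpoly (ρ.ρ σ) = X ^ 2 - C ((a : O)) * X + C ((ℓ : O))) ∧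
        (∀ q : ℕ, q.Prime → q ≠ lam → q ∣ M → ¬ q ^ 2 ∣ M →
          ∀ A : ValuationSubring ℚbar, A.LiesOverPrime q → ∀ σ : Γ, A.IsFrobeniusAt σ q →
              LinearMap.charpoly (ρ.ρ σ) = X ^ 2 - C ((q : O) + 1) * X + C ((q : O)) ∨
              LinearMap.charpoly (ρ.ρ σ) = X ^ 2 + C ((q : O) + 1) * X + C ((q : O))) := by
  let S : Finset ℕ := insert lam M.primeFactors
  have hMS : ∀ q : ℕ, q.Prime → q ∣ M → q ∈ S := fun q hq hqM =>
    Finset.mem_insert_of_mem (Nat.mem_primeFactors.mpr ⟨hq, hqM, NeZero.ne M⟩)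
  have hlamZ : ((lam : ℕ) : ℤ_[lam]) ∈ IsLocalRing.maximalIdeal ℤ_[lam] := by
    rw [PadicInt.maximalIdeal_eq_span_p]; exact Ideal.mem_span_singleton_self _
  obtain ⟨O, _, _, _, _, _, _, _, _, hloc, -, ρ, h1, h2⟩ :=
    Fermat.Agent.S35.result D.isNewform lam S ℤ_[lam] hlamZ
    (D.chi ↑S) (fun ℓ hℓ hℓM hℓS => Hecke.eigenCharacter_T D.isNewform.1 hℓ hℓM hℓS)
    (D.iota hΔ ↑S ℤ_[lam]) (Finset.mem_insert_self _ _) hMS
  have hlamO : (lam : O) ∈ IsLocalRing.maximalIdeal O := by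
    have := map_nonunit (algebraMap ℤ_[lam] O) _ hlamZ
    rwa [map_natCast] at this
  refine ⟨O, inferInstance, inferInstance, inferInstance, inferInstance, inferInstance, hlamO, ρ,
    fun ℓ hℓ hℓM hℓlam a ha A hA σ hσ => ?_, h2⟩
  have hℓS : ℓ ∉ (↑S : Set ℕ) := by simp [S, hℓlam, hℓM]
  rw [h1 ℓ hℓ hℓM hℓS A hA σ hσ, D.iota_T hΔ ℤ_[lam] hℓ hℓM hℓS ha, map_intCast]

omit [NeZero M] in
/-- Frobenius polynomials of such a representation outside the primes of `N`. -/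
theorem charpoly_of_not_dvd (hMN : M ∣ N) {O : Type} [CommRing O] [IsLocalRing O] {lam : ℕ}
    {ρ : GaloisRepAdic O}
    (hρ : ∀ ℓ : ℕ, ℓ.Prime → ¬ ℓ ∣ M → ℓ ≠ lam → ∀ a : ℤ, qCoeff ⇑D.g ℓ = (a : ℂ) →
      ∀ A : ValuationSubring ℚbar, A.LiesOverPrime ℓ → ∀ σ : Γ, A.IsFrobeniusAt σ ℓ →
        LinearMap.charpoly (ρ.ρ σ) = X ^ 2 - C ((a : O)) * X + C ((ℓ : O))) :
    ∀ ℓ : ℕ, ℓ.Prime → ℓ ∉ N.primeFactors → W.IsGoodPrimeFor ℓ → ℓ ≠ lam →
      ∀ A : ValuationSubring ℚbar, A.LiesOverPrime ℓ → ∀ τ : Γ, A.IsFrobeniusAt τ ℓ →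
        LinearMap.charpoly (ρ.ρ τ) = X ^ 2 - C ((W.apOfModel ℓ : ℤ) : O) * X + C ((ℓ : O)) :=
  fun ℓ hℓ hℓS hgood hℓlam A hA τ hτ => by
    have hℓN : ¬ ℓ ∣ N := fun hd => hℓS (Nat.mem_primeFactors.mpr ⟨hℓ, hd, NeZero.ne N⟩)
    exact hρ ℓ hℓ (fun hd => hℓN (hd.trans hMN)) hℓlam _ (D.coeff ℓ hℓ hgood hℓN) A hA τ hτ

/-- The coefficient at a good prime outside the level is the trace of Frobenius of `W`. -/
theorem coeff_eq (hΔ : W.Δ ≠ 0) (hMN : M ∣ N) {ℓ : ℕ} (hℓ : ℓ.Prime)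
    (hgood : W.IsGoodPrimeFor ℓ) (hℓM : ¬ ℓ ∣ M) : qCoeff ⇑D.g ℓ = (W.apOfModel ℓ : ℂ) := by
  obtain ⟨lam, hlamℓ, hlam⟩ := Nat.exists_infinite_primes (ℓ + 1)
  have : Fact lam.Prime := ⟨hlam⟩
  have hne : ℓ ≠ lam := by omega
  obtain ⟨O, _, _, _, _, _, hlamO, ρ, h1, -⟩ := D.exists_rep hΔ lam
  obtain ⟨a, ha⟩ := D.exists_int_coeff hΔ hℓ hℓM
  obtain ⟨A, hA⟩ := Gal.exists_liesOverPrime (L := ℚbar) hℓ
  obtain ⟨σ, hσ⟩ := Gal.exists_isFrobeniusAt hℓ hA
  have e1 := (trO_eq_of_charpoly (h1 ℓ hℓ hℓM hne a ha A hA σ hσ)).1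
  have e2 := (trO_eq_of_charpoly (charpoly_frobenius_eq hΔ hlam hlamO ρ N.primeFactors
    (D.charpoly_of_not_dvd hMN h1) hℓ hgood hne hA hσ)).1
  rw [ha, Int.cast_injective (e1.symm.trans e2)]

/-- A prime exactly dividing the level is a bad prime of `W`. -/
theorem dvd_Δ_of_dvd (hΔ : W.Δ ≠ 0) (hMN : M ∣ N) {q : ℕ} (hq : q.Prime)
    (hqM : q ∣ M) (hq2 : ¬ q ^ 2 ∣ M) : (q : ℤ) ∣ W.Δ := by
  by_contra hgood
  obtain ⟨lam, hlamq, hlam⟩ := Nat.exists_infinite_primes (q + 1)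
  have : Fact lam.Prime := ⟨hlam⟩
  have hne : q ≠ lam := by omega
  obtain ⟨O, _, _, _, _, _, hlamO, ρ, h1, h2⟩ := D.exists_rep hΔ lam
  obtain ⟨A, hA⟩ := Gal.exists_liesOverPrime (L := ℚbar) hq
  obtain ⟨σ, hσ⟩ := Gal.exists_isFrobeniusAt hq hA
  have e := (trO_eq_of_charpoly (charpoly_frobenius_eq hΔ hlam hlamO ρ N.primeFactors
    (D.charpoly_of_not_dvd hMN h1) hq hgood hne hA hσ)).1
  obtain ⟨hb1, hb2⟩ := apOfModel_ne W hq
  rcases h2 q hq hne hqM hq2 A hA σ hσ with hc | hc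
  · have e' := (trO_eq_of_charpoly hc).1
    refine hb1 (Int.cast_injective (α := O) ?_)
    rw [← e, e']; push_cast; ring
  · have hc' : LinearMap.charpoly (ρ.ρ σ) =
        X ^ 2 - C (-((q : O) + 1)) * X + C ((q : O)) := by rw [hc, map_neg]; ring
    have e' := (trO_eq_of_charpoly hc').1
    refine hb2 (Int.cast_injective (α := O) ?_)
    rw [← e, e']; push_cast; ring

/-- If the level is squarefree, the eigensystem occurs at the conductor level. -/
theorem isModularModelOfLevel_conductorLevel (hΔ : W.Δ ≠ 0) (hMN : M ∣ N) (hsf : Squarefree M) :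
    W.IsModularModelOfLevel W.conductorLevel := by
  have hMR : M ∣ W.conductorLevel := by
    rw [← Nat.prod_primeFactors_of_squarefree hsf]
    refine Finset.prod_primes_dvd _ (fun q hq => (Nat.prime_of_mem_primeFactors hq).prime)
      fun q hq => ?_
    have hqp := Nat.prime_of_mem_primeFactors hq
    exact (W.prime_dvd_conductorLevel_iff hΔ hqp).mpr
      (D.dvd_Δ_of_dvd hΔ hMN hqp (Nat.dvd_of_mem_primeFactors hq)
        fun hd => hqp.not_isUnit (hsf q (by rwa [← sq])))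
  set v := Newform.degen W.conductorLevel M 1 2 (by simpa using hMR) D.g
  have hv : v ≠ 0 := fun h => by
    have h1 := congrArg (fun F : CuspForm (Gamma0 W.conductorLevel) 2 => qCoeff ⇑F 1) h
    simp only [v, Newform.qCoeff_degen_one, D.isNewform.1.qCoeff_one] at h1
    exact one_ne_zero (h1.trans (Hecke.qCoeff_zero_form 1))
  obtain ⟨g', hg', hg'a⟩ := Newform.exists_eigenform_of_eigenvector ∅ (fun ℓ => qCoeff ⇑D.g ℓ) hv
    (fun ℓ hℓ hℓR _ => Newform.isNormalizedEigenform_heckeT D.isNewform.1 _ _ hℓ hℓR)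
  refine ⟨g', hg', fun ℓ hℓ hgood hℓR => ?_⟩
  rw [hg'a ℓ hℓ hℓR (Set.notMem_empty _)]
  exact D.coeff_eq hΔ hMN hℓ hgood fun hd => hℓR (hd.trans hMR)

end AttachedNewform

end Fermat.Agent.Conductor
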