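import Fermat.Agent.EC.Frobenius.Trace
import Fermat.Agent.EC.Reduction.Galois

/-!
# The quadratic relation of Frobenius on torsion

The quadratic relation of a Frobenius element on all torsion points of order prime to the residue
characteristic (`frobenius_quadratic`), and the existence of points of exact prime-power order
(`exists_exact_order`).
-/

set_option autoImplicit false

noncomputable section

open WeierstrassCurve WeierstrassCurve.Affine.Point Fermat.Agent.Isogeny
open scoped WeierstrassCurve.Affine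

namespace Fermat.Agent.Conductor

local notation "ℚbar" => AlgebraicClosure ℚ
local notation "Γ" => AlgebraicClosure ℚ ≃ₐ[ℚ] AlgebraicClosure ℚ

variable {W : WeierstrassCurve ℤ}

/-- `σ²P - a_ℓ σP + ℓP = 0` for a Frobenius `σ` at a good prime `ℓ` and `n`-torsion `P`, `ℓ ∤ n`. -/
theorem frobenius_quadratic {ℓ n : ℕ} (hℓ : ℓ.Prime) (hgood : W.IsGoodPrimeFor ℓ) (hn : ¬ ℓ ∣ n)
    {A : ValuationSubring ℚbar} {σ : Γ} (hA : A.LiesOverPrime ℓ) (hσ : A.IsFrobeniusAt σ ℓ)
    {P : ((W.map (Int.castRingHom ℚ))⁄ℚbar).Point} (hP : n • P = 0) :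
    σ • σ • P - W.apOfModel ℓ • (σ • P) + (ℓ : ℤ) • P = 0 := by
  classical
  have hΔ : W.Δ ≠ 0 := fun h => hgood (by rw [h]; exact dvd_zero _)
  set π := IsLocalRing.residue A
  have : IsAlgClosed (IsLocalRing.ResidueField A) := Fermat.Agent.Gal.isAlgClosed_residueField A
  have : Fact ℓ.Prime := ⟨hℓ⟩
  have hchar := EC.Reduction.charP_of_liesOverPrime π hℓ hA
  have hΔ₀ := EC.Reduction.Δ_intModel_ne_zero π hℓ hA hgood
  let f := ZMod.castHom (dvd_refl ℓ) (IsLocalRing.ResidueField A)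
  have hW₀ : (W.reductionMod ℓ).map f =
      W.map (Int.castRingHom (IsLocalRing.ResidueField A)) := by
    rw [reductionMod, WeierstrassCurve.map_map, RingHom.eq_intCast' (f.comp _)]
  have hell : ((W.reductionMod ℓ).map f).IsElliptic := ⟨by
    rw [isUnit_iff_ne_zero, hW₀]; exact hΔ₀⟩
  have hred := EC.Reduction.reduces_intModel (K := ℚbar) W π
  rw [← hW₀] at hred hΔ₀
  have hnk : (n : IsLocalRing.ResidueField A) ≠ 0 :=
    EC.Reduction.natCast_ne_zero_of_liesOverPrime π hℓ hA hn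
  have hW := map_iterateFrobenius_zmod (W.reductionMod ℓ) f
  let r := EC.Reduction.redGood hred hΔ₀
  have hf : ∀ Q, r (σ • Q) = frobPt ((W.reductionMod ℓ).map f) ℓ 1 hW (r Q) := by
    intro Q
    change EC.Reduction.red π _ (σ • Q) = frobPt _ ℓ 1 hW (EC.Reduction.red π _ Q)
    have hm := EC.Reduction.redTo_red hred hΔ₀ Q
    generalize EC.Reduction.red π ((W.reductionMod ℓ).map f) Q = R at hm ⊢
    rcases Q with _ | ⟨x, y, hQ⟩
    · obtain rfl : R = 0 := EC.Reduction.RedTo.unique hm EC.Reduction.RedTo.zero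
      rw [← Affine.Point.zero_def, smul_zero, _root_.map_zero]
      exact EC.Reduction.red_eq EC.Reduction.RedTo.zero
    rcases hm with ⟨hx, rfl⟩ | ⟨x₀, y₀, h₀, hx, hy, rfl⟩
    · rw [_root_.map_zero]
      exact EC.Reduction.red_eq
        (EC.Reduction.redTo_smul_zero hσ.mem_decompositionSubgroup
          (EC.Reduction.RedTo.of_notMem hx))
    · simp only [frobPt, endoPoint_some, iterateFrobenius_def, pow_one]
      exact EC.Reduction.red_eq (EC.Reduction.redTo_smul_of_isFrobeniusAt hσ hx hy)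
  set X := σ • σ • P - W.apOfModel ℓ • (σ • P) + (ℓ : ℤ) • P with hX
  have h0 : r X = 0 := by
    rw [hX, map_add, map_sub, map_zsmul, map_zsmul, hf, hf,
      frobPt_sq_eq _ ℓ 1 hW one_ne_zero, frobTrace_eq_traceOfFrobenius, pow_one]
    show _ - (W.reductionMod ℓ).traceOfFrobenius • _ + _ = _
    abel
  have hnX : n • X = 0 := by
    have hsn : ∀ R : ((W.map (Int.castRingHom ℚ))⁄ℚbar).Point,
        n • (σ • R) = σ • (n • R) := fun R =>
      ((Affine.Point.map σ.toAlgHom).map_nsmul n R).symm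
    rw [hX, nsmul_add, nsmul_sub, smul_comm n (W.apOfModel ℓ), smul_comm n (ℓ : ℤ), hsn, hsn, hP]
    have hs0 : σ • (0 : ((W.map (Int.castRingHom ℚ))⁄ℚbar).Point) = 0 :=
      _root_.map_zero (Affine.Point.map σ.toAlgHom)
    simp only [hs0, zsmul_zero, sub_zero, add_zero]
  refine EC.Reduction.eq_of_redTo_of_nsmul_eq_zero hred
    (EC.Reduction.redTo_red hred hΔ₀ X) ?_ hnk hnX (nsmul_zero n)
  rw [show EC.Reduction.red π _ X = r X from rfl, h0]
  exact EC.Reduction.RedTo.zero

/-- There are points of exact order `p ^ n`. -/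
theorem exists_exact_order (hΔ : W.Δ ≠ 0) {p : ℕ} (hp : p.Prime) {n : ℕ} :
    ∃ P : ((W.map (Int.castRingHom ℚ))⁄ℚbar).Point, p ^ n • P = 0 ∧
      ∀ m : ℤ, m • P = 0 → ((p : ℤ) ^ n) ∣ m := by
  rcases n with _ | n
  · exact ⟨0, by simp, fun m _ => by simp⟩
  have := EC.Frobenius.isElliptic_map_rat hΔ
  set E := (W.map (Int.castRingHom ℚ))
  have hc : ∀ k : ℕ, Nat.card (Submodule.torsionBy ℤ (E⁄ℚbar).Point (p ^ k : ℕ)) = (p ^ k) ^ 2 :=
    fun k => card_torsionBy_baseChange (K := ℚbar) E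
      (Nat.cast_ne_zero.mpr (pow_ne_zero k hp.ne_zero))
  by_contra hcon
  push Not at hcon
  have hle : Submodule.torsionBy ℤ (E⁄ℚbar).Point (p ^ (n + 1) : ℕ) ≤
      Submodule.torsionBy ℤ (E⁄ℚbar).Point (p ^ n : ℕ) := by
    intro P hP
    rw [Submodule.mem_torsionBy_iff, natCast_zsmul] at hP ⊢
    obtain ⟨m, hm, hndvd⟩ := hcon P hP
    -- the order of `P` is a power of `p` strictly below `p ^ (n+1)`
    obtain ⟨j, hj, hord⟩ := (Nat.dvd_prime_pow hp).mp (addOrderOf_dvd_of_nsmul_eq_zero hP)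
    have hjn : j ≤ n := by
      by_contra hgt
      refine hndvd ?_
      have h := addOrderOf_dvd_iff_zsmul_eq_zero.mpr hm
      rw [hord, show j = n + 1 by omega] at h
      exact_mod_cast h
    exact addOrderOf_dvd_iff_nsmul_eq_zero.mp (hord ▸ pow_dvd_pow p hjn)
  have hfin : Finite (Submodule.torsionBy ℤ (E⁄ℚbar).Point (p ^ n : ℕ)) :=
    Nat.finite_of_card_ne_zero (by rw [hc]; exact pow_ne_zero 2 (pow_ne_zero _ hp.ne_zero))
  have hcard := Nat.card_le_card_of_injective _ (Submodule.inclusion_injective hle)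
  rw [hc, hc] at hcard
  have : p ^ (n + 1) ≤ p ^ n := (Nat.pow_le_pow_iff_left two_ne_zero).mp hcard
  exact absurd ((Nat.pow_le_pow_iff_right hp.one_lt).mp this) (by omega)

end Fermat.Agent.Conductor
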