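import Fermat.Agent.Newform.MultOne
import Fermat.Agent.Hecke.Lattice
import Fermat.Agent.MFCore.Integral
import Fermat.Agent.LevelOne.AutC
import Fermat.Prelude.Def_CuspForm_Newforms

/-!
# Newforms with rational integral eigenvalues

A newform whose eigenvalues are rational integers at almost all primes has rational integral
Hecke eigenvalues (`exists_int_eigenCharacter`).
-/

set_option autoImplicit false

noncomputable section

open CongruenceSubgroup ModularFormClass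

namespace Fermat.Agent.Conductor

variable {M : ℕ} [NeZero M]

/-- Field automorphisms of `ℂ` act on normalised eigenforms through their coefficients. -/
theorem exists_twist_eigenform (σ : ℂ ≃+* ℂ) {g : CuspForm (Gamma0 M) 2}
    (hg : g.IsNormalizedEigenform) :
    ∃ h : CuspForm (Gamma0 M) 2, h.IsNormalizedEigenform ∧
      ∀ n, qCoeff ⇑h n = σ (qCoeff ⇑g n) := by
  obtain ⟨h, hh⟩ := MFCore.exists_cuspForm_twist σ.toRingHom g
  have key : ∀ n, qCoeff ⇑h n = σ (qCoeff ⇑g n) := fun n => by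
    rw [qCoeff, qCoeff, hh, PowerSeries.coeff_map]; rfl
  refine ⟨h, ⟨?_, ?_, ?_, ?_⟩, key⟩
  · rw [key, hg.qCoeff_one, map_one]
  · intro m n hmn
    rw [key, key, key, hg.qCoeff_mul_of_coprime m n hmn, map_mul]
  · intro p r hp hpM
    rw [key, key, key, key, hg.qCoeff_prime_pow_of_not_dvd p r hp hpM, map_sub, map_mul, map_mul,
      map_natCast]
  · intro p r hp hpM
    rw [key, key, key, hg.qCoeff_prime_pow_of_dvd p r hp hpM, map_mul]

/-- The coefficients are rational. -/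
theorem exists_rat_qCoeff {g : CuspForm (Gamma0 M) 2} (hg : g.IsNewform) (S : Finset ℕ)
    (hint : ∀ ℓ : ℕ, ℓ.Prime → ¬ ℓ ∣ M → ℓ ∉ S → ∃ a : ℤ, qCoeff ⇑g ℓ = (a : ℂ)) (n : ℕ) :
    ∃ r : ℚ, (r : ℂ) = qCoeff ⇑g n := by
  refine LevelOne.exists_rat_eq_of_forall_ringEquiv_fixed fun σ => ?_
  obtain ⟨h, hh, key⟩ := exists_twist_eigenform σ hg.1
  have heq : h = g := Newform.eq_of_isNewform hg hh S fun ℓ hℓ hℓM hℓS => by
    obtain ⟨a, ha⟩ := hint ℓ hℓ hℓM hℓS
    rw [key, ha, map_intCast]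
  rw [← key, heq]

/-- The Hecke eigenvalues are rational integers. -/
theorem exists_int_eigenCharacter {g : CuspForm (Gamma0 M) 2} (hg : g.IsNewform) (S : Finset ℕ)
    (hint : ∀ ℓ : ℕ, ℓ.Prime → ¬ ℓ ∣ M → ℓ ∉ S → ∃ a : ℤ, qCoeff ⇑g ℓ = (a : ℂ))
    (T : Set ℕ) (t : CuspForm.heckeAlgebra M 2 T) :
    ∃ m : ℤ, Hecke.eigenCharacter hg.1 T t = (m : ℂ) := by
  set χ := Hecke.eigenCharacter hg.1 T
  have hv := Hecke.eigenCharacter_isEigenvector hg.1 T t
  -- the eigenvalue is the first coefficient of `t g`, hence rational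
  have hrat : ∃ r : ℚ, (r : ℂ) = χ t := by
    refine LevelOne.exists_rat_eq_of_forall_ringEquiv_fixed fun σ => ?_
    have hgen : ∀ s ∈ CuspForm.heckeGenerators M 2 T,
        ∀ (hs : s ∈ CuspForm.heckeAlgebra M 2 T), σ (χ ⟨s, hs⟩) = χ ⟨s, hs⟩ := by
      intro s hs hsmem
      rcases hs with ⟨ℓ, hℓ, hℓN, hℓS, rfl⟩ | ⟨q, hqN, hq, hqS, rfl⟩
      · obtain ⟨r, hr⟩ := exists_rat_qCoeff hg S hint ℓ
        rw [show (⟨_, hsmem⟩ : CuspForm.heckeAlgebra M 2 T) =
            CuspForm.heckeAlgebra.T hℓ hℓN hℓS from rfl,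
          Hecke.eigenCharacter_T hg.1, ← hr, map_ratCast]
      · obtain ⟨r, hr⟩ := exists_rat_qCoeff hg S hint q
        rw [show (⟨_, hsmem⟩ : CuspForm.heckeAlgebra M 2 T) =
            CuspForm.heckeAlgebra.U hq hqN hqS from rfl,
          Hecke.eigenCharacter_U hg.1, ← hr, map_ratCast]
    obtain ⟨t, ht⟩ := t
    induction ht using Algebra.adjoin_induction with
    | mem s hs => exact hgen s hs _
    | algebraMap m =>
      rw [show (⟨algebraMap ℤ _ m, _⟩ : CuspForm.heckeAlgebra M 2 T) =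
        algebraMap ℤ (CuspForm.heckeAlgebra M 2 T) m from rfl, eq_intCast, map_intCast, map_intCast]
    | add x y hx hy ihx ihy =>
      rw [show (⟨x + y, _⟩ : CuspForm.heckeAlgebra M 2 T) = ⟨x, hx⟩ + ⟨y, hy⟩ from rfl, map_add,
        map_add, ihx (Hecke.eigenCharacter_isEigenvector hg.1 T _),
        ihy (Hecke.eigenCharacter_isEigenvector hg.1 T _)]
    | mul x y hx hy ihx ihy =>
      rw [show (⟨x * y, _⟩ : CuspForm.heckeAlgebra M 2 T) = ⟨x, hx⟩ * ⟨y, hy⟩ from rfl, map_mul,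
        map_mul, ihx (Hecke.eigenCharacter_isEigenvector hg.1 T _),
        ihy (Hecke.eigenCharacter_isEigenvector hg.1 T _)]
  obtain ⟨r, hr⟩ := hrat
  have hi : IsIntegral ℤ (χ t) :=
    Hecke.isIntegral_of_hasIntegralStructure one_le_two (MFCore.hasIntegralStructure M 2) χ t
  rw [← hr, show (r : ℂ) = algebraMap ℚ ℂ r from (eq_ratCast (algebraMap ℚ ℂ) r).symm,
    isIntegral_algebraMap_iff (algebraMap ℚ ℂ).injective] at hi
  obtain ⟨m, hm⟩ := IsIntegrallyClosed.isIntegral_iff.mp hi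
  exact ⟨m, by rw [← hr, ← hm, eq_intCast]; norm_cast⟩

end Fermat.Agent.Conductor
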