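import Fermat.Agent.Conductor.Quadratic
import Fermat.Agent.Density.Reps
import Fermat.Agent.EC.Frobenius.DetCyclotomic
import Fermat.Prelude.Def_GaloisRep_LocalConditions

/-!
# Propagation of the Frobenius relation

The relation `Rel` between a two-dimensional adic representation and the `pⁿ`-torsion of a curve
is propagated from Frobenius elements to the whole Galois group (`rel_of_forall_frobenius`).
-/

set_option autoImplicit false

noncomputable section

open WeierstrassCurve WeierstrassCurve.Affine.Point Polynomial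
open scoped WeierstrassCurve.Affine

namespace Fermat.Agent.Conductor

local notation "ℚbar" => AlgebraicClosure ℚ
local notation "Γ" => AlgebraicClosure ℚ ≃ₐ[ℚ] AlgebraicClosure ℚ

/-- If `f² - a f + d = 0` in a ring, then every power of `f` satisfies a similar relation. -/
theorem exists_pow_relation {E : Type*} [Ring E] (F : E) (a d : ℤ)
    (h : F * F - (a : E) * F + (d : E) = 0) (s : ℕ → ℤ) (h0 : s 0 = 2) (h1 : s 1 = a)
    (hrec : ∀ j, s (j + 2) = a * s (j + 1) - d * s j) (j : ℕ) :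
    F ^ j * F ^ j - (s j : E) * F ^ j + ((d ^ j : ℤ) : E) = 0 := by
  set G : E := (a : E) - F with hG
  have hFF : F * F = (a : E) * F - (d : E) := by
    rw [eq_sub_iff_add_eq, ← sub_eq_zero, ← h]; abel
  have hcomm : Commute F (a : E) := (Int.cast_commute a F).symm
  have hFG : F * G = (d : E) := by
    rw [hG, mul_sub, hFF, hcomm.eq]; abel
  have hGF : G * F = (d : E) := by rw [hG, sub_mul, hFF]; abel
  have hGG : G * G = (a : E) * G - (d : E) := by
    conv_lhs => arg 1; rw [hG]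
    rw [sub_mul, hFG]
  have hsum : ∀ j, F ^ j + G ^ j = (s j : E) := by
    intro j
    induction j using Nat.twoStepInduction with
    | zero => rw [pow_zero, pow_zero, h0]; norm_num
    | one => rw [pow_one, pow_one, h1, hG]; abel
    | more j ih ih' =>
      have hF2 : F ^ (j + 2) = (a : E) * F ^ (j + 1) - (d : E) * F ^ j := by
        rw [add_comm j 2, pow_add, sq, hFF, sub_mul, mul_assoc, ← pow_succ']
      have hG2 : G ^ (j + 2) = (a : E) * G ^ (j + 1) - (d : E) * G ^ j := by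
        rw [add_comm j 2, pow_add, sq, hGG, sub_mul, mul_assoc, ← pow_succ']
      rw [hF2, hG2, hrec, Int.cast_sub, Int.cast_mul, Int.cast_mul, ← ih, ← ih', mul_add, mul_add]
      abel
  have hGFc : Commute G F := by rw [Commute, SemiconjBy, hGF, hFG]
  rw [← hsum, add_mul, ← hGFc.mul_pow, hGF, Int.cast_pow]
  abel

section LocalRing

variable {O : Type} [CommRing O] [IsLocalRing O]

/-- The trace of an adic representation. -/
abbrev trO (ρ : GaloisRepAdic O) (σ : Γ) : O := LinearMap.trace O ρ.V (ρ.ρ σ)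

/-- The determinant of an adic representation. -/
abbrev detO (ρ : GaloisRepAdic O) (σ : Γ) : O := LinearMap.det (ρ.ρ σ)

/-- `σ` acts on `E[pⁿ]`, on `μ_{pⁿ}` and on `ρ mod pⁿ` with the same trace and determinant. -/
def Rel (W : WeierstrassCurve ℤ) (p n : ℕ) (ρ : GaloisRepAdic O) (σ : Γ) : Prop :=
  ∃ a d : ℤ, trO ρ σ - (a : O) ∈ Ideal.span {((p : O)) ^ n} ∧
    detO ρ σ - (d : O) ∈ Ideal.span {((p : O)) ^ n} ∧
    (∀ ζ : ℚbar, ζ ^ (p ^ n) = 1 → σ ζ = ζ ^ d) ∧
    ∀ P : ((W.map (Int.castRingHom ℚ))⁄ℚbar).Point, p ^ n • P = 0 →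
      σ • σ • P - a • (σ • P) + d • P = 0

variable {W : WeierstrassCurve ℤ} {p n : ℕ} {ρ : GaloisRepAdic O}

theorem charpoly_eq (ρ : GaloisRepAdic O) (σ : Γ) :
    LinearMap.charpoly (ρ.ρ σ) = X ^ 2 - C (trO ρ σ) * X + C (detO ρ σ) :=
  Density.charpoly_eq_of_finrank_two ρ.finrank_eq (ρ.ρ σ)

omit [IsLocalRing O] in
theorem coeff_one_quadratic (t u : O) : (X ^ 2 - C t * X + C u : O[X]).coeff 1 = -t := by
  simp [coeff_X_pow]

omit [IsLocalRing O] in
theorem coeff_zero_quadratic (t u : O) : (X ^ 2 - C t * X + C u : O[X]).coeff 0 = u := by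
  simp [coeff_X_pow]

theorem trO_eq_of_charpoly {σ : Γ} {t u : O}
    (h : LinearMap.charpoly (ρ.ρ σ) = X ^ 2 - C t * X + C u) : trO ρ σ = t ∧ detO ρ σ = u := by
  rw [charpoly_eq] at h
  constructor
  · have := congrArg (fun f : O[X] => f.coeff 1) h
    simp only [coeff_one_quadratic, neg_inj] at this
    exact this
  · have := congrArg (fun f : O[X] => f.coeff 0) h
    simp only [coeff_zero_quadratic] at this
    exact this

theorem moduleEnd_pow_apply (σ : Γ) (j : ℕ) (N : ℕ)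
    (x : Submodule.torsionBy ℤ ((W.map (Int.castRingHom ℚ))⁄ℚbar).Point N) :
    (galoisRepModuleEnd (K := ℚbar) ℚ (W.map (Int.castRingHom ℚ)).toAffine N σ ^ j) x =
      σ ^ j • x := by
  rw [← map_pow]; rfl

theorem Rel.conj {σ : Γ} (h : Rel W p n ρ σ) (g : Γ) : Rel W p n ρ (g * σ * g⁻¹) := by
  obtain ⟨a, d, h1, h2, h3, h4⟩ := h
  obtain ⟨ht, hd⟩ := trO_eq_of_charpoly (ρ := ρ) (σ := g * σ * g⁻¹) (t := trO ρ σ) (u := detO ρ σ)
    (by rw [Density.charpoly_conj_eq ρ.finrank_eq ρ.ρ g σ, charpoly_eq])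
  refine ⟨a, d, by rwa [ht], by rwa [hd], fun ζ hζ => ?_, fun P hP => ?_⟩
  · have h' : (g⁻¹ ζ) ^ (p ^ n) = 1 := by rw [← map_pow, hζ, map_one]
    rw [AlgEquiv.mul_apply, AlgEquiv.mul_apply, h3 _ h', map_zpow₀, ← AlgEquiv.mul_apply,
      mul_inv_cancel, AlgEquiv.one_apply]
  · have h' : p ^ n • (g⁻¹ • P) = 0 := by
      show p ^ n • (Affine.Point.map (g⁻¹ : Γ).toAlgHom P) = 0
      rw [← map_nsmul, hP, _root_.map_zero]
    let G := Affine.Point.map (W' := (W.map (Int.castRingHom ℚ)).toAffine) g.toAlgHom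
    have e := congrArg G (h4 _ h')
    rw [map_add, map_sub, map_zsmul, map_zsmul, _root_.map_zero] at e
    have hinv : g • g⁻¹ • P = P := smul_inv_smul g P
    have hsm : ∀ Q : ((W.map (Int.castRingHom ℚ))⁄ℚbar).Point,
        (g * σ * g⁻¹) • Q = g • σ • g⁻¹ • Q := fun Q => by rw [mul_smul, mul_smul]
    rw [hsm, hsm, inv_smul_smul]
    have hGeq : ∀ Q : ((W.map (Int.castRingHom ℚ))⁄ℚbar).Point, G Q = g • Q := fun _ => rfl
    rw [hGeq, hGeq, hGeq, hinv] at e
    exact e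

theorem Rel.pow {σ : Γ} (h : Rel W p n ρ σ) (j : ℕ) : Rel W p n ρ (σ ^ j) := by
  obtain ⟨a, d, h1, h2, h3, h4⟩ := h
  let aux : ℕ → ℤ × ℤ := fun j => Nat.rec (2, a) (fun _ q => (q.2, a * q.2 - d * q.1)) j
  let s : ℕ → ℤ := fun j => (aux j).1
  have hrec : ∀ j, s (j + 2) = a * s (j + 1) - d * s j := fun _ => rfl
  set I : Ideal O := Ideal.span {((p : O)) ^ n}
  rw [← Ideal.Quotient.eq] at h1 h2
  have htr : ∀ j, Ideal.Quotient.mk I (trO ρ (σ ^ j)) = Ideal.Quotient.mk I (s j : O) := by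
    intro j
    induction j using Nat.twoStepInduction with
    | zero =>
      rw [trO, pow_zero, map_one, LinearMap.trace_one, ρ.finrank_eq]
      norm_num [s, aux]
    | one => rw [pow_one, h1]; rfl
    | more j ih ih' =>
      rw [trO, map_pow, Density.trace_pow_add_two ρ.finrank_eq, hrec, map_sub, map_mul, map_mul,
        ← map_pow, ← map_pow, ← trO, ← trO, ← trO, ← detO, ih', ih, h1, h2]
      push_cast
      simp only [map_sub, map_mul]
  refine ⟨s j, d ^ j, by rw [← Ideal.Quotient.eq]; exact htr j, ?_, fun ζ hζ => ?_, fun P hP => ?_⟩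
  · rw [← Ideal.Quotient.eq, detO, map_pow, map_pow, map_pow, ← detO, h2, Int.cast_pow, map_pow]
  · clear htr
    induction j with
    | zero => simp
    | succ j ih =>
      rw [pow_succ, AlgEquiv.mul_apply, h3 ζ hζ, map_zpow₀, ih, ← zpow_mul, pow_succ]
  · let F := galoisRepModuleEnd (K := ℚbar) ℚ (W.map (Int.castRingHom ℚ)).toAffine (p ^ n) σ
    have hF : F * F - (a : Module.End _ _) * F + (d : Module.End _ _) = 0 := by
      refine LinearMap.ext fun x => Subtype.ext ?_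
      have hx : p ^ n • (x : ((W.map (Int.castRingHom ℚ))⁄ℚbar).Point) = 0 := by
        rw [← natCast_zsmul]; exact x.2
      simp only [LinearMap.add_apply, LinearMap.sub_apply, Module.End.mul_apply,
        Module.End.intCast_apply, LinearMap.zero_apply, Submodule.coe_add, Submodule.coe_sub,
        Submodule.coe_smul_of_tower, ZeroMemClass.coe_zero]
      exact h4 _ hx
    have hj := exists_pow_relation F a d hF s rfl rfl hrec j
    have hmem : P ∈ Submodule.torsionBy ℤ ((W.map (Int.castRingHom ℚ))⁄ℚbar).Point (p ^ n : ℕ) := by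
      rw [Submodule.mem_torsionBy_iff, natCast_zsmul, hP]
    have h5 := congrArg Subtype.val (LinearMap.congr_fun hj ⟨P, hmem⟩)
    simp only [LinearMap.add_apply, LinearMap.sub_apply, Module.End.mul_apply,
      Module.End.intCast_apply, LinearMap.zero_apply, Submodule.coe_add, Submodule.coe_sub,
      Submodule.coe_smul_of_tower, ZeroMemClass.coe_zero, F, moduleEnd_pow_apply] at h5
    exact h5

/-- Frobenius elements satisfy `Rel`. -/
theorem rel_frobenius (hp : p.Prime) {ℓ : ℕ} (hℓ : ℓ.Prime) (hgood : W.IsGoodPrimeFor ℓ)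
    (hℓp : ℓ ≠ p) {A : ValuationSubring ℚbar} (hA : A.LiesOverPrime ℓ) {τ : Γ}
    (hτ : A.IsFrobeniusAt τ ℓ)
    (h : LinearMap.charpoly (ρ.ρ τ) =
      X ^ 2 - C ((W.apOfModel ℓ : ℤ) : O) * X + C ((ℓ : O))) :
    Rel W p n ρ τ := by
  obtain ⟨ht, hd⟩ := trO_eq_of_charpoly h
  have hℓn : ¬ ℓ ∣ p ^ n := fun hd =>
    hℓp ((Nat.prime_dvd_prime_iff_eq hℓ hp).mp (hℓ.dvd_of_dvd_pow hd))
  refine ⟨W.apOfModel ℓ, ℓ, by rw [ht, sub_self]; exact Ideal.zero_mem _,
    by rw [hd, Int.cast_natCast, sub_self]; exact Ideal.zero_mem _, fun ζ hζ => ?_, fun P hP =>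
    frobenius_quadratic hℓ hgood hℓn hA hτ hP⟩
  rw [zpow_natCast]
  exact Gal.apply_rootOfUnity_of_isFrobeniusAt hτ hℓ hA hℓn hζ

end LocalRing

variable {O : Type} [CommRing O] {W : WeierstrassCurve ℤ} {p : ℕ}

/-- `Rel` only depends on `σ` through a finite level. -/
theorem exists_level_rel [IsDomain O] [IsDiscreteValuationRing O] [CharZero O]
    (hΔ : W.Δ ≠ 0) (hp : p.Prime) (ρ : GaloisRepAdic O) (n : ℕ) :
    ∃ L : IntermediateField ℚ ℚbar, FiniteDimensional ℚ L ∧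
      ∀ σ σ' : Γ, (∀ x ∈ L, σ x = σ' x) → Rel W p n ρ σ' → Rel W p n ρ σ := by
  set I : Ideal O := Ideal.span {((p : O)) ^ n}
  have hI : I ≠ ⊥ := by simp [I, hp.ne_zero]
  obtain ⟨π, hπ⟩ := IsDiscreteValuationRing.exists_irreducible O
  obtain ⟨m, hm⟩ := IsDiscreteValuationRing.ideal_eq_span_pow_irreducible hI hπ
  have hmax : IsLocalRing.maximalIdeal O ^ m ≤ I := by
    rw [hπ.maximalIdeal_eq, Ideal.span_singleton_pow, hm]
  obtain ⟨L₁, hL₁, h₁⟩ := Density.reduceMod_factorsThroughFiniteLevel ρ m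
  have := EC.Frobenius.isElliptic_map_rat hΔ
  obtain ⟨L₂, hL₂, h₂⟩ := EC.Frobenius.galoisFactorsThroughFiniteLevel_torsion
    (W.map (Int.castRingHom ℚ)) (pow_ne_zero n hp.ne_zero : p ^ n ≠ 0)
  have : NeZero (p ^ n) := ⟨pow_ne_zero n hp.ne_zero⟩
  have : NeZero ((p ^ n : ℕ) : ℚbar) := ⟨Nat.cast_ne_zero.mpr (pow_ne_zero n hp.ne_zero)⟩
  obtain ⟨z, hz⟩ := HasEnoughRootsOfUnity.exists_primitiveRoot ℚbar (p ^ n)
  let L₃ : IntermediateField ℚ ℚbar := IntermediateField.adjoin ℚ {z}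
  have hL₃ : FiniteDimensional ℚ L₃ :=
    IntermediateField.adjoin.finiteDimensional (Algebra.IsAlgebraic.isAlgebraic z).isIntegral
  refine ⟨L₁ ⊔ L₂ ⊔ L₃, inferInstance, fun σ σ' hxy => ?_⟩
  rintro ⟨a, d, h1, h2, h3, h4⟩
  have e₁ := Density.apply_eq_of_eqOn _ L₁ h₁ (σ := σ) (σ' := σ')
    fun x hx => hxy x ((le_sup_left.trans le_sup_left : L₁ ≤ L₁ ⊔ L₂ ⊔ L₃) hx)
  have e₂ := Density.apply_eq_of_eqOn _ L₂ h₂ (σ := σ) (σ' := σ')
    fun x hx => hxy x ((le_sup_right.trans le_sup_left : L₂ ≤ L₁ ⊔ L₂ ⊔ L₃) hx)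
  have hcp := congrArg LinearMap.charpoly e₁
  rw [Density.reduceMod_apply, Density.reduceMod_apply, LinearMap.charpoly_baseChange,
    LinearMap.charpoly_baseChange, charpoly_eq, charpoly_eq] at hcp
  have hmem : ∀ x y : O, Ideal.Quotient.mk (IsLocalRing.maximalIdeal O ^ m) x =
      Ideal.Quotient.mk _ y → x - y ∈ I := fun x y e => hmax (Ideal.Quotient.eq.mp e)
  have ht : trO ρ σ - trO ρ σ' ∈ I := by
    have := congrArg (fun f => Polynomial.coeff f 1) hcp
    simp only [coeff_map, coeff_one_quadratic, map_neg, neg_inj] at this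
    exact hmem _ _ this
  have hd : detO ρ σ - detO ρ σ' ∈ I := by
    have := congrArg (fun f => Polynomial.coeff f 0) hcp
    simp only [coeff_map, coeff_zero_quadratic] at this
    exact hmem _ _ this
  refine ⟨a, d, by simpa using I.add_mem ht h1, by simpa using I.add_mem hd h2,
    fun ζ hζ => ?_, fun P hP => ?_⟩
  · obtain ⟨i, -, rfl⟩ := hz.eq_pow_of_pow_eq_one hζ
    rw [map_pow, hxy z (le_sup_right (a := L₁ ⊔ L₂) (IntermediateField.mem_adjoin_simple_self ℚ z)),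
      ← map_pow]
    exact h3 _ hζ
  · have hσ : ∀ Q : ((W.map (Int.castRingHom ℚ))⁄ℚbar).Point, p ^ n • Q = 0 → σ • Q = σ' • Q := by
      intro Q hQ
      have hmemQ : Q ∈ Submodule.torsionBy ℤ ((W.map (Int.castRingHom ℚ))⁄ℚbar).Point
          (p ^ n : ℕ) := by
        rw [Submodule.mem_torsionBy_iff, natCast_zsmul, hQ]
      exact congrArg Subtype.val (LinearMap.congr_fun e₂ ⟨Q, hmemQ⟩)
    have hP' : p ^ n • (σ' • P) = 0 := by
      show p ^ n • (Affine.Point.map σ'.toAlgHom P) = 0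
      rw [← map_nsmul, hP, _root_.map_zero]
    rw [hσ P hP, hσ _ hP']
    exact h4 P hP

/-- `Rel` holds everywhere once the Frobenius characteristic polynomials of `ρ` are those of `W`
almost everywhere. -/
theorem rel_of_forall_frobenius [IsDomain O] [IsDiscreteValuationRing O] [CharZero O]
    (hΔ : W.Δ ≠ 0) (hp : p.Prime) (ρ : GaloisRepAdic O) (S : Finset ℕ)
    (hfrob : ∀ ℓ : ℕ, ℓ.Prime → ℓ ∉ S → W.IsGoodPrimeFor ℓ → ℓ ≠ p →
      ∀ A : ValuationSubring ℚbar, A.LiesOverPrime ℓ → ∀ τ : Γ, A.IsFrobeniusAt τ ℓ →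
        LinearMap.charpoly (ρ.ρ τ) = X ^ 2 - C ((W.apOfModel ℓ : ℤ) : O) * X + C ((ℓ : O)))
    (n : ℕ) (σ : Γ) : Rel W p n ρ σ := by
  obtain ⟨L, hL, hcongr⟩ := exists_level_rel hΔ hp ρ n
  refine Density.forall_of_forall_frobenius L (Rel W p n ρ) hcongr (fun g σ h => h.conj g)
    (fun σ j h => h.pow j) (↑(S ∪ insert p W.Δ.natAbs.primeFactors)) (Finset.finite_toSet _)
    (fun ℓ hℓ hℓS A hA τ hτ => ?_) σ
  simp only [Finset.coe_union, Finset.coe_insert, Set.mem_union, Set.mem_insert_iff,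
    Finset.mem_coe, Nat.mem_primeFactors, not_or] at hℓS
  have hgood : W.IsGoodPrimeFor ℓ := fun hd =>
    hℓS.2.2 ⟨hℓ, Int.natCast_dvd.mp hd, Int.natAbs_ne_zero.mpr hΔ⟩
  exact rel_frobenius hp hℓ hgood hℓS.2.1 hA hτ (hfrob ℓ hℓ hℓS.1 hgood hℓS.2.1 A hA τ hτ)

end Fermat.Agent.Conductor
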