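import Fermat.Agent.Conductor.Main

/-!
# From a squarefree level to the conductor level

At a squarefree level the newform can only have level dividing the conductor level, by S35 alone
(`isModularModelOfLevel_conductorLevel_of_squarefree`).
-/

set_option autoImplicit false

noncomputable section

namespace Fermat.Agent.Conductor

open CongruenceSubgroup
open ModularFormClass (qCoeff)

/-- Modularity at a squarefree level gives modularity at the conductor level. -/
theorem isModularModelOfLevel_conductorLevel_of_squarefree
    (W : WeierstrassCurve ℤ) (hΔ : W.Δ ≠ 0) {N : ℕ} (hsf : Squarefree N)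
    (hN : W.IsModularModelOfLevel N) :
    W.IsModularModelOfLevel W.conductorLevel := by
  have hN0 : N ≠ 0 := hsf.ne_zero
  have : NeZero N := ⟨hN0⟩
  obtain ⟨f, hf, hfa⟩ := hN
  obtain ⟨M, hMN, g, hg, hga⟩ := Newform.exists_isNewform_goodEigensystem hf
  have : NeZero M := ⟨fun h => hN0 (by subst h; simpa using hMN)⟩
  let D : AttachedNewform W M N :=
    ⟨g, hg, fun ℓ hℓ hgood hℓN => (hga ℓ hℓ hℓN).trans (hfa ℓ hℓ hgood hℓN)⟩
  exact D.isModularModelOfLevel_conductorLevel hΔ hMN (hsf.squarefree_of_dvd hMN)

end Fermat.Agent.Conductor
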